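import Mathlib

/-!
# S56, [GW-EC], cell [EC-KUM], `H¹` half, algebraic core (prefix `s56eck_`)

Mathlib only.  `d : A →* I` a homomorphism of commutative groups (application: the divisor map
`id_div S K : Kˣ →* id_I S K` of S55, `I` = the ideals prime to `S`, a free abelian group), `p` a
natural number such that `I` has no `p`-torsion.  Put `E = ker d` (the `S`-units), `Cl = I ⧸ d.range`
(the `S`-class group) and

`W = s56eck_W d p = {x | d x ∈ I ^ p}`  (the elements whose divisor is a `p`-th power).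

Then `1 → E / E^p → W / A^p → Cl[p] → 1` is exact:

* `s56eck_root d p x : I` the unique `a` with `a ^ p = d x` (`x ∈ W`), multiplicative in `x`;
* `s56eck_cl d p hI : W →* I ⧸ d.range`, `x ↦ [root x]`, with values in the `p`-torsion
  (`s56eck_cl_pow`), onto the `p`-torsion (`s56eck_cl_surj`), with kernel `E · A^p`
  (`s56eck_cl_eq_one_iff`);
* `s56eck_ker_inf_pow` : `E ∩ A^p = E^p`;
* equivariance for a group acting compatibly (`s56eck_smul_mem_W`, `s56eck_root_smul`).
-/

set_option autoImplicit false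

namespace Fermat.Agent.S56

section Abstract

variable {A I : Type*} [CommGroup A] [CommGroup I] (d : A →* I) (p : ℕ)

/-- The elements whose divisor is a `p`-th power. -/
def s56eck_W : Subgroup A := ((powMonoidHom p : I →* I).range).comap d

theorem s56eck_mem_W {x : A} : x ∈ s56eck_W d p ↔ ∃ a : I, a ^ p = d x := by
  rw [s56eck_W, Subgroup.mem_comap, MonoidHom.mem_range]
  rfl

theorem s56eck_ker_le_W : d.ker ≤ s56eck_W d p := by
  intro x hx
  rw [s56eck_mem_W]
  exact ⟨1, by rw [one_pow, (MonoidHom.mem_ker).1 hx]⟩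

theorem s56eck_pow_mem_W (y : A) : y ^ p ∈ s56eck_W d p := by
  rw [s56eck_mem_W]
  exact ⟨d y, by rw [map_pow]⟩

theorem s56eck_mul_pow_mem_W {e : A} (he : e ∈ d.ker) (y : A) : e * y ^ p ∈ s56eck_W d p :=
  (s56eck_W d p).mul_mem (s56eck_ker_le_W d p he) (s56eck_pow_mem_W d p y)

/-- The `p`-th root of the divisor of an element of `W`. -/
noncomputable def s56eck_root (x : s56eck_W d p) : I :=
  ((s56eck_mem_W d p).1 x.2).choose

theorem s56eck_root_pow (x : s56eck_W d p) : s56eck_root d p x ^ p = d (x : A) :=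
  ((s56eck_mem_W d p).1 x.2).choose_spec

variable {d p}

theorem s56eck_root_unique (hI : ∀ a : I, a ^ p = 1 → a = 1) {x : s56eck_W d p} {a : I}
    (h : a ^ p = d (x : A)) : a = s56eck_root d p x := by
  have h1 : (a / s56eck_root d p x) ^ p = 1 := by
    rw [div_pow, h, s56eck_root_pow, div_self']
  exact div_eq_one.1 (hI _ h1)

theorem s56eck_root_mul (hI : ∀ a : I, a ^ p = 1 → a = 1) (x y : s56eck_W d p) :
    s56eck_root d p (x * y) = s56eck_root d p x * s56eck_root d p y := by
  symm
  apply s56eck_root_unique hI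
  rw [mul_pow, s56eck_root_pow, s56eck_root_pow, Subgroup.coe_mul, map_mul]

theorem s56eck_root_one (hI : ∀ a : I, a ^ p = 1 → a = 1) :
    s56eck_root d p (1 : s56eck_W d p) = 1 := by
  symm
  apply s56eck_root_unique hI
  rw [one_pow, Subgroup.coe_one, map_one]

variable (d p)

/-- **The class map** `W →* Cl = I ⧸ d.range`, `x ↦ [(d x)^{1/p}]`. -/
noncomputable def s56eck_cl (hI : ∀ a : I, a ^ p = 1 → a = 1) : s56eck_W d p →* I ⧸ d.range where
  toFun x := QuotientGroup.mk (s56eck_root d p x)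
  map_one' := by rw [s56eck_root_one hI, QuotientGroup.mk_one]
  map_mul' x y := by rw [s56eck_root_mul hI, QuotientGroup.mk_mul]

variable {d p}

theorem s56eck_cl_apply (hI : ∀ a : I, a ^ p = 1 → a = 1) (x : s56eck_W d p) :
    s56eck_cl d p hI x = QuotientGroup.mk (s56eck_root d p x) := rfl

/-- the class map has values in the `p`-torsion of the class group. -/
theorem s56eck_cl_pow (hI : ∀ a : I, a ^ p = 1 → a = 1) (x : s56eck_W d p) :
    s56eck_cl d p hI x ^ p = 1 := by
  rw [s56eck_cl_apply, ← QuotientGroup.mk_pow, s56eck_root_pow, QuotientGroup.eq_one_iff]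
  exact ⟨_, rfl⟩

/-- **exactness in the middle**: the kernel of the class map is `E · A^p`. -/
theorem s56eck_cl_eq_one_iff (hI : ∀ a : I, a ^ p = 1 → a = 1) (x : s56eck_W d p) :
    s56eck_cl d p hI x = 1 ↔ ∃ e ∈ d.ker, ∃ y : A, (x : A) = e * y ^ p := by
  rw [s56eck_cl_apply, QuotientGroup.eq_one_iff]
  constructor
  · rintro ⟨y, hy⟩
    refine ⟨(x : A) / y ^ p, ?_, y, by rw [div_mul_cancel]⟩
    rw [MonoidHom.mem_ker, map_div, map_pow, hy, s56eck_root_pow, div_self']
  · rintro ⟨e, he, y, hxy⟩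
    refine ⟨y, ?_⟩
    apply s56eck_root_unique hI
    rw [← map_pow, hxy, map_mul, (MonoidHom.mem_ker).1 he, one_mul]

/-- **exactness on the right**: the class map is onto the `p`-torsion of the class group. -/
theorem s56eck_cl_surj (hI : ∀ a : I, a ^ p = 1 → a = 1) (c : I ⧸ d.range) (hc : c ^ p = 1) :
    ∃ x : s56eck_W d p, s56eck_cl d p hI x = c := by
  induction c using QuotientGroup.induction_on with
  | H a =>
    rw [← QuotientGroup.mk_pow, QuotientGroup.eq_one_iff] at hc
    obtain ⟨x, hx⟩ := hc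
    have hxW : x ∈ s56eck_W d p := (s56eck_mem_W d p).2 ⟨a, hx.symm⟩
    refine ⟨⟨x, hxW⟩, ?_⟩
    rw [s56eck_cl_apply]
    congr 1
    symm
    exact s56eck_root_unique hI (x := ⟨x, hxW⟩) hx.symm

/-- **exactness on the left**: `E ∩ A^p = E^p`. -/
theorem s56eck_ker_inf_pow (hI : ∀ a : I, a ^ p = 1 → a = 1) {y : A} (h : y ^ p ∈ d.ker) :
    y ∈ d.ker := by
  rw [MonoidHom.mem_ker] at h ⊢
  rw [map_pow] at h
  exact hI _ h

section Equivariant

variable {G : Type*} [Group G] [MulDistribMulAction G A] [MulDistribMulAction G I]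

theorem s56eck_smul_mem_W (hd : ∀ (g : G) (x : A), d (g • x) = g • d x) (g : G) {x : A}
    (hx : x ∈ s56eck_W d p) : g • x ∈ s56eck_W d p := by
  rw [s56eck_mem_W] at hx ⊢
  obtain ⟨a, ha⟩ := hx
  exact ⟨g • a, by rw [hd, ← ha, smul_pow']⟩

theorem s56eck_root_smul (hI : ∀ a : I, a ^ p = 1 → a = 1)
    (hd : ∀ (g : G) (x : A), d (g • x) = g • d x) (g : G) (x : s56eck_W d p) :
    s56eck_root d p ⟨g • (x : A), s56eck_smul_mem_W hd g x.2⟩ = g • s56eck_root d p x := by
  symm
  apply s56eck_root_unique hI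
  rw [← smul_pow', s56eck_root_pow]
  exact (hd g x).symm

end Equivariant

end Abstract

end Fermat.Agent.S56
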