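import Mathlib
import Fermat.Agent.S55.Places.NumberField
import Fermat.Agent.S55.Idele.UnramIndex
import Fermat.Agent.S55.Idele.SUnitSeam
import Fermat.Agent.S56.GW.EC.Kum.Alg

/-!
# S56, [GW-EC], cell [EC-KUM], `H¹` half: valuations (prefix `s56eck_`)

Dictionary between the local condition `ku_IsLocalPow S F p x` of S55 (valuation subrings of `ℚ̄`)
and the divisor map `id_div S F : Fˣ →* I^S(F)` of the idele side:

* `s56eck_val_transfer` : for a number field `K ⊆ ℚ̄`, `A` over `ℓ`, `P = pl_prime K A`: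
  `P.valuation x = P.valuation y ↔ A.valuation x = A.valuation y` (`x, y ∈ Kˣ`);
* `s56eck_localPow_iff` : `ku_IsLocalPow S F n x ↔ ∀ v ∤ S, n ∣ ord_v x` (`x ∈ Fˣ`);
* `s56eck_localPow_iff_mem_W` : `ku_IsLocalPow S F n x ↔ x ∈ s56eck_W (id_div S F) n`;
* `s56eck_localPow_of_mem_level` : if `β` lies in a normal number field `L ⊇ F` unramified outside
  `S`, then `β ^ n` is locally an `n`-th power up to units outside `S` (with `z` a power of the
  residue characteristic).
-/

set_option autoImplicit false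
set_option linter.unusedSectionVars false
set_option linter.style.haveILetI false

namespace Fermat.Agent.S56

open Fermat.Agent.S55 NumberField IsDedekindDomain

local notation "Qbar" => AlgebraicClosure ℚ

section Transfer

variable (K : IntermediateField ℚ Qbar) [NumberField K] (A : ValuationSubring Qbar)
  {ℓ : ℕ} (hℓ : ℓ.Prime) (hA : A.LiesOverPrime ℓ)

/-- Equality of valuations of nonzero elements of `K` can be tested at the prime of `𝓞 K` below `A`
or at `A`. -/
theorem s56eck_val_transfer {x y : K} (hy : y ≠ 0) :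
    (pl_prime K A hℓ hA).valuation K x = (pl_prime K A hℓ hA).valuation K y ↔
      A.valuation (x : Qbar) = A.valuation (y : Qbar) := by
  have hy' : ((y : K) : Qbar) ≠ 0 := by
    intro h
    exact hy (by exact_mod_cast h)
  have h1 : (pl_prime K A hℓ hA).valuation K x = (pl_prime K A hℓ hA).valuation K y ↔
      (pl_prime K A hℓ hA).valuation K (x / y) = 1 := by
    rw [map_div₀, div_eq_one_iff_eq ((Valuation.ne_zero_iff _).2 hy)]
  have h2 : A.valuation (x : Qbar) = A.valuation (y : Qbar) ↔
      A.valuation (((x / y : K)) : Qbar) = 1 := by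
    have : (((x / y : K)) : Qbar) = (x : Qbar) / (y : Qbar) := by push_cast; rfl
    rw [this, map_div₀, div_eq_one_iff_eq ((Valuation.ne_zero_iff _).2 hy')]
  rw [h1, h2]
  exact pl_valuation_eq_one_iff K A hℓ hA (x / y)

end Transfer

section Generic

variable (S : Finset Nat.Primes) (K : Type*) [Field K] [NumberField K]

/-- The group of ideals prime to `S` is torsion free. -/
theorem s56eck_I_torsionFree {n : ℕ} (hn : n ≠ 0) (a : id_I S K) (h : a ^ n = 1) : a = 1 := by
  apply Multiplicative.toAdd.injective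
  have h1 : n • a.toAdd = 0 := congrArg Multiplicative.toAdd h
  ext v
  have h2 : (n • a.toAdd) v = 0 := by rw [h1]; rfl
  rw [Finsupp.smul_apply, nsmul_eq_mul] at h2
  rcases mul_eq_zero.1 h2 with h3 | h3
  · exact absurd (by exact_mod_cast h3) hn
  · exact h3

/-- `x ∈ W_S(F)` (divisor outside `S` an `n`-th power) iff all orders outside `S` are divisible
by `n`. -/
theorem s56eck_mem_W_iff (n : ℕ) (x : Kˣ) :
    x ∈ s56eck_W (id_div S K) n ↔ ∀ v : id_P S K, (n : ℤ) ∣ id_ordZ K v.1 x := by
  rw [s56eck_mem_W]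
  constructor
  · rintro ⟨a, ha⟩ v
    refine ⟨a.toAdd v, ?_⟩
    rw [← id_div_apply, ← ha]
    change (n • a.toAdd) v = _
    rw [Finsupp.smul_apply, nsmul_eq_mul]
  · intro h
    by_cases hn : n = 0
    · refine ⟨1, ?_⟩
      subst hn
      rw [pow_zero]
      apply Multiplicative.toAdd.injective
      ext v
      obtain ⟨m, hm⟩ := h v
      rw [id_div_apply, hm]
      simp
    · have hn' : (n : ℤ) ≠ 0 := by exact_mod_cast hn
      refine ⟨Multiplicative.ofAdd
        (Finsupp.ofSupportFinite (fun v => (id_div S K x).toAdd v / (n : ℤ)) ?_), ?_⟩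
      · apply Set.Finite.subset (Finsupp.hasFiniteSupport (id_div S K x).toAdd)
        intro v hv
        simp only [Function.mem_support, ne_eq] at hv ⊢
        intro h0
        apply hv
        rw [h0, Int.zero_ediv]
      · apply Multiplicative.toAdd.injective
        ext v
        change (n • Finsupp.ofSupportFinite (fun v => (id_div S K x).toAdd v / (n : ℤ)) _) v = _
        rw [Finsupp.smul_apply, nsmul_eq_mul]
        change (n : ℤ) * ((id_div S K x).toAdd v / (n : ℤ)) = _
        rw [id_div_apply]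
        exact Int.mul_ediv_cancel' (h v)

end Generic

section LocalPow

variable (S : Finset Nat.Primes) (F : IntermediateField ℚ Qbar) [NumberField F]

/-- A valuation subring over `q ∉ S` cuts out a prime of `𝓞 F` prime to `S`. -/
theorem s56eck_primeToS (A : ValuationSubring Qbar) (q : Nat.Primes) (hq : q ∉ S)
    (hA : A.LiesOverPrime (q : ℕ)) : id_PrimeToS S F (pl_prime F A q.2 hA) := by
  rw [ie_primeToS_iff, pl_prime_mem_primesOver_iff]
  exact hq

/-- Every prime of `𝓞 F` prime to `S` comes from a valuation subring over some `q ∉ S`. -/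
theorem s56eck_exists_valuationSubring (v : id_P S F) :
    ∃ (q : Nat.Primes) (_ : q ∉ S) (A : ValuationSubring Qbar) (hA : A.LiesOverPrime (q : ℕ)),
      pl_prime F A q.2 hA = v.1 := by
  obtain ⟨q, hq, hmem⟩ := pl_exists_prime_mem F v.1
  obtain ⟨A, hA, hAv⟩ := pl_exists_valuationSubring F v.1 hq hmem
  exact ⟨⟨q, hq⟩, fun h => v.2 ⟨q, hq⟩ h hmem, A, hA, hAv⟩

/-- The valuation of a unit in terms of its order, as a power. -/
theorem s56eck_valuation_zpow (v : HeightOneSpectrum (𝓞 F)) (x : (↥F)ˣ) :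
    v.valuation F (x : F) = (WithZero.exp (-1 : ℤ)) ^ (id_ordZ F v x) := by
  rw [id_valuation_eq_exp, ← WithZero.exp_zsmul]
  congr 1
  simp

/-- **Dictionary**: `x ∈ Fˣ` is locally an `n`-th power up to units outside `S` iff all its orders
at the primes outside `S` are divisible by `n`. -/
theorem s56eck_localPow_iff (n : ℕ) (x : (↥F)ˣ) :
    ku_IsLocalPow S F n (((x : (↥F)ˣ) : F) : Qbar) ↔
      ∀ v : id_P S F, (n : ℤ) ∣ id_ordZ F v.1 x := by
  constructor
  · intro h v
    obtain ⟨q, hqS, A, hA, hAv⟩ := s56eck_exists_valuationSubring S F v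
    obtain ⟨z, hzF, hz0, hval⟩ := h q hqS A hA
    have hz0' : (⟨z, hzF⟩ : F) ≠ 0 := fun h0 => hz0 (congrArg Subtype.val h0)
    set zu : (↥F)ˣ := Units.mk0 ⟨z, hzF⟩ hz0' with hzu
    have hzn0 : ((zu : F) ^ n) ≠ 0 := pow_ne_zero _ zu.ne_zero
    have h1 : A.valuation (((x : (↥F)ˣ) : F) : Qbar) = A.valuation ((((zu : F) ^ n : F)) : Qbar) := by
      rw [hval]
      push_cast
      rw [map_pow]
      rfl
    have h2 := (s56eck_val_transfer F A q.2 hA hzn0).2 h1
    rw [hAv, map_pow, s56eck_valuation_zpow, s56eck_valuation_zpow, ← zpow_natCast, ← zpow_mul] at h2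
    have h3 : id_ordZ F v.1 x = id_ordZ F v.1 zu * n := by
      have hinj : Function.Injective (fun k : ℤ => (WithZero.exp (-1 : ℤ)) ^ k) := by
        intro a b hab
        simp only [← WithZero.exp_zsmul, WithZero.exp_inj, smul_eq_mul] at hab
        linarith
      exact hinj h2
    exact ⟨id_ordZ F v.1 zu, by rw [h3, mul_comm]⟩
  · intro h q hqS A hA
    have hv := s56eck_primeToS S F A q hqS hA
    obtain ⟨m, hm⟩ := h ⟨pl_prime F A q.2 hA, hv⟩
    obtain ⟨π, hπ⟩ := (pl_prime F A q.2 hA).valuation_exists_uniformizer F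
    have hπ0 : π ≠ 0 := by
      intro h0
      rw [h0, map_zero] at hπ
      exact WithZero.exp_ne_zero hπ.symm
    have hz0 : π ^ m ≠ 0 := zpow_ne_zero _ hπ0
    have hzn0 : (π ^ m) ^ n ≠ 0 := pow_ne_zero _ hz0
    have h1 : (pl_prime F A q.2 hA).valuation F (x : F) =
        (pl_prime F A q.2 hA).valuation F ((π ^ m) ^ n) := by
      rw [s56eck_valuation_zpow, map_pow, map_zpow₀, hπ, ← zpow_natCast, ← zpow_mul]
      rw [hm, mul_comm]
    have h2 := (s56eck_val_transfer F A q.2 hA hzn0).1 h1
    refine ⟨((π ^ m : F) : Qbar), (π ^ m : F).2, fun h0 => hz0 (by exact_mod_cast h0), ?_⟩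
    rw [h2]
    push_cast
    rw [map_pow]

/-- **Dictionary**: the local condition of S55 is membership in `W_S(F)`. -/
theorem s56eck_localPow_iff_mem_W (n : ℕ) (x : (↥F)ˣ) :
    ku_IsLocalPow S F n (((x : (↥F)ˣ) : F) : Qbar) ↔ x ∈ s56eck_W (id_div S F) n :=
  (s56eck_localPow_iff S F n x).trans (s56eck_mem_W_iff S (↥F) n x).symm

end LocalPow

section Level

variable (S : Finset Nat.Primes) (L : IntermediateField ℚ Qbar) [Normal ℚ L] [NumberField L]

/-- In a normal number field unramified outside `S`, every nonzero element has, at a place over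
`q ∉ S`, the valuation of a power of `q`. -/
theorem s56eck_valuation_eq_prime_zpow (hL : L.IsUnramifiedOutside S) (q : Nat.Primes) (hq : q ∉ S)
    (A : ValuationSubring Qbar) (hA : A.LiesOverPrime (q : ℕ)) {β : Qbar} (hβ : β ∈ L)
    (hβ0 : β ≠ 0) : ∃ m : ℤ, A.valuation β = A.valuation (((q : ℕ) : Qbar) ^ m) := by
  have hw := s56eck_primeToS S L A q hq hA
  have hval := iu_valuation_prime S L hL (pl_prime L A q.2 hA) hw q q.2
    (pl_natCast_mem_ideal L A hA)
  have hβ0' : (⟨β, hβ⟩ : L) ≠ 0 := fun h0 => hβ0 (congrArg Subtype.val h0)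
  set βu : (↥L)ˣ := Units.mk0 ⟨β, hβ⟩ hβ0' with hβu
  refine ⟨id_ordZ L (pl_prime L A q.2 hA) βu, ?_⟩
  have hq0 : (((q : ℕ) : L)) ≠ 0 := by
    have := q.2.ne_zero
    exact_mod_cast this
  have hz0 : (((q : ℕ) : L)) ^ (id_ordZ L (pl_prime L A q.2 hA) βu) ≠ 0 := zpow_ne_zero _ hq0
  have h1 : (pl_prime L A q.2 hA).valuation L (βu : L) =
      (pl_prime L A q.2 hA).valuation L ((((q : ℕ) : L)) ^ (id_ordZ L (pl_prime L A q.2 hA) βu)) := by
    rw [s56eck_valuation_zpow, map_zpow₀, hval]
  have h2 := (s56eck_val_transfer L A q.2 hA hz0).1 h1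
  have h3 : (((βu : (↥L)ˣ) : L) : Qbar) = β := rfl
  rw [h3] at h2
  rw [h2]
  rfl

/-- **Level ⟹ local power.**  If `β` lies in a normal number field `L` unramified outside `S`, then
`β ^ n` is locally an `n`-th power up to units outside `S` over any field `F`. -/
theorem s56eck_localPow_of_mem_level (hL : L.IsUnramifiedOutside S)
    (F : IntermediateField ℚ Qbar) (n : ℕ) {β : Qbar} (hβ : β ∈ L) (hβ0 : β ≠ 0) :
    ku_IsLocalPow S F n (β ^ n) := by
  intro q hq A hA
  obtain ⟨m, hm⟩ := s56eck_valuation_eq_prime_zpow S L hL q hq A hA hβ hβ0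
  have hq0 : (((q : ℕ) : Qbar)) ≠ 0 := by
    have := q.2.ne_zero
    exact_mod_cast this
  refine ⟨((q : ℕ) : Qbar) ^ m, zpow_mem (natCast_mem F _) m, zpow_ne_zero _ hq0, ?_⟩
  rw [map_pow, hm]

end Level

end Fermat.Agent.S56
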