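import Mathlib
import Fermat.Agent.S55.Idele.LevUnram
import Fermat.Agent.S55.Idele.TVersion
import Fermat.Agent.S55.Dual.ModulesES
import Fermat.Agent.S55.Trans.LocH90
import Fermat.Agent.S56.GW.EC.Kum.Val
import Fermat.Agent.S56.GW.EC.Sh.HS

/-!
# S56, [GW-EC], cell [EC-KUM]: finiteness of `H¹(G_{K,S}, E_S)` (`s56eck_`)

For a Galois level `a : du_Lev S` with field `K = a.L` and `V = Gal(ℚ̄/K)`, the level cohomology group
`lvH1 (s56esh_LU (tl_levelsS S) V) (dm_ES S)` is finite: it injects into the `S`-class group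
`id_ClS S K` (classically it is equal to it).

* `s56eck_valuation_eq_ord` : in a normal number field unramified outside `S`, at a place `A` of `ℚ̄`
  over `q ∉ S`, `A.valuation x = A.valuation (q ^ ord_v x)`, `v` the prime of the field below `A`;
* `s56eck_IsDiv S a β D` : the divisor `D ∈ I^S(K)` computes the valuations of `β ∈ ℚ̄ˣ` outside `S`;
* `s56eck_fin_h90` : a level-constant cocycle `c : V → E_S` is `σ ↦ β / σ β` with `β` in a level
  and `β` has a divisor `D ∈ I^S(K)` (Hilbert 90 + descent of invariant divisors along the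
  unramified extension of levels);
* `s56eck_fin_key` : if the divisors of `β`, `β'` agree in the class group, the cocycles are
  cohomologous;
* **`s56eck_fin_V`** : `Finite (lvH1 (s56esh_LU (tl_levelsS S) a.L.fixingSubgroup) (dm_ES S))`;
* **`s56eck_fin_coind`** : the same for the coinduced module over `G_ℚ` (Shapiro).
-/

set_option autoImplicit false
set_option linter.unusedSectionVars false
set_option linter.style.haveILetI false

namespace Fermat.Agent.S56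

open Fermat.Agent.S55 NumberField IsDedekindDomain

local notation "Qbar" => AlgebraicClosure ℚ
local notation "GQ" => (AlgebraicClosure ℚ ≃ₐ[ℚ] AlgebraicClosure ℚ)

section Ord

variable (S : Finset Nat.Primes) (L : IntermediateField ℚ Qbar) [Normal ℚ L] [NumberField L]

/-- In a normal number field unramified outside `S`, the valuation at a place over `q ∉ S` of a
unit is that of `q ^ ord`. -/
theorem s56eck_valuation_eq_ord (hL : L.IsUnramifiedOutside S) (q : Nat.Primes) (hq : q ∉ S)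
    (A : ValuationSubring Qbar) (hA : A.LiesOverPrime (q : ℕ)) (x : (↥L)ˣ) :
    A.valuation (((x : (↥L)ˣ) : L) : Qbar) =
      A.valuation (((q : ℕ) : Qbar) ^ (id_ordZ L (pl_prime L A q.2 hA) x)) := by
  have hw := s56eck_primeToS S L A q hq hA
  have hval := iu_valuation_prime S L hL (pl_prime L A q.2 hA) hw q q.2
    (pl_natCast_mem_ideal L A hA)
  have hq0 : (((q : ℕ) : L)) ≠ 0 := by
    have := q.2.ne_zero
    exact_mod_cast this
  have hz0 : (((q : ℕ) : L)) ^ (id_ordZ L (pl_prime L A q.2 hA) x) ≠ 0 := zpow_ne_zero _ hq0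
  have h1 : (pl_prime L A q.2 hA).valuation L (x : L) =
      (pl_prime L A q.2 hA).valuation L ((((q : ℕ) : L)) ^ (id_ordZ L (pl_prime L A q.2 hA) x)) := by
    rw [s56eck_valuation_zpow, map_zpow₀, hval]
  have h2 := (s56eck_val_transfer L A q.2 hA hz0).1 h1
  rw [h2]
  rfl

/-- The valuation of `q` at a place over `q` is not `1`. -/
theorem s56eck_valuation_prime_lt (q : ℕ) (A : ValuationSubring Qbar) (hA : A.LiesOverPrime q) :
    A.valuation ((q : ℕ) : Qbar) < 1 :=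
  (ValuationSubring.mem_nonunits_iff (A := A)).1 hA

end Ord

/-- Mathlib's action of `K ≃ₐ[ℚ] K` on `Kˣ`, on underlying elements. -/
theorem s56eck_fin_units_smul (K : Type*) [Field K] [Algebra ℚ K] (σ : K ≃ₐ[ℚ] K) (x : Kˣ) :
    ((σ • x : Kˣ) : K) = σ (x : K) := rfl

section Fin

variable (S : Finset Nat.Primes)

/-- The prime below a place of `ℚ̄` is compatible with the inclusion of levels. -/
theorem s56eck_under_prime {a b : du_Lev S} (hab : a ≤ b) {ℓ : ℕ} (hℓ : ℓ.Prime)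
    (A : ValuationSubring Qbar) (hA : A.LiesOverPrime ℓ) :
    letI := id_levAlgebra hab
    id_under a.L b.L (pl_prime b.L A hℓ hA) = pl_prime a.L A hℓ hA := by
  letI := id_levAlgebra hab
  apply HeightOneSpectrum.ext
  ext x
  rw [id_under_asIdeal, Ideal.under_def, Ideal.mem_comap]
  show algebraMap (𝓞 a.L) (𝓞 b.L) x ∈ pl_ideal b.L A ↔ x ∈ pl_ideal a.L A
  rw [pl_mem_ideal, pl_mem_ideal]
  rfl

variable (a : du_Lev S)

/-- `D ∈ I^S(K)` computes the valuations of `β` at the places of `ℚ̄` outside `S`. -/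
def s56eck_IsDiv (β : Qbar) (D : id_I S a.L) : Prop :=
  ∀ (q : Nat.Primes) (hq : q ∉ S) (A : ValuationSubring Qbar) (hA : A.LiesOverPrime (q : ℕ)),
    A.valuation β = A.valuation (((q : ℕ) : Qbar) ^
      (D.toAdd ⟨pl_prime a.L A q.2 hA, s56eck_primeToS S a.L A q hq hA⟩))

/-- **Hilbert 90 + descent of divisors.**  A level-constant cocycle `c : G_K → E_S` is
`σ ↦ β / σ β` for some `β ≠ 0` of a level, and `β` has a divisor in `I^S(K)`. -/
theorem s56eck_fin_h90 (c : lvZ1 (s56esh_LU (tl_levelsS S) a.L.fixingSubgroup) (dm_ES S)) :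
    ∃ (β : Qbar) (D : id_I S a.L), β ≠ 0 ∧
      (∃ F : IntermediateField ℚ Qbar, F.IsUnramifiedOutside S ∧ β ∈ F) ∧
      (∀ σ : ↥a.L.fixingSubgroup,
        dm_ES.coe S ((c : ↥a.L.fixingSubgroup → dm_ES S) σ) * (σ : GQ) β = β) ∧
      s56eck_IsDiv S a β D := by
  classical
  haveI := id_qbarIsGalois
  obtain ⟨hcoc, U, ⟨U', ⟨F, hF, rfl⟩, rfl⟩, hlc⟩ := c.2
  obtain ⟨b₀, hb₀⟩ := du_Lev.exists_ge_field F hF
  set b : du_Lev S := du_Lev.sup a b₀ with hb
  have hab : a ≤ b := du_Lev.le_sup_left a b₀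
  have hFb : F ≤ b.L := le_trans hb₀ (du_Lev.le_sup_right a b₀)
  have hle : b.L.fixingSubgroup ≤ a.L.fixingSubgroup := IntermediateField.fixingSubgroup_antitone hab
  have hfi : b.L.fixingSubgroup.FiniteIndex := tl_finiteIndex_fixingSubgroup b.L
  have hfi' : (b.L.fixingSubgroup.subgroupOf a.L.fixingSubgroup).FiniteIndex := inferInstance
  let m : ↥a.L.fixingSubgroup → Qbar := fun h => dm_ES.coe S ((c : ↥a.L.fixingSubgroup → dm_ES S) h)
  obtain ⟨β, hβ0, hβ⟩ := tl_h90_of_finiteIndex (H := ↥a.L.fixingSubgroup) (Ω := Qbar) b.L.toSubfield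
    (b.L.fixingSubgroup.subgroupOf a.L.fixingSubgroup)
    (fun s => by
      rw [Subgroup.mem_subgroupOf, IntermediateField.mem_fixingSubgroup_iff]
      rfl)
    m (fun h => dm_ES.coe_ne_zero _)
    (fun g h => by
      show dm_ES.coe S ((c : ↥a.L.fixingSubgroup → dm_ES S) (g * h)) = dm_ES.coe S ((c : ↥a.L.fixingSubgroup → dm_ES S) g) *
        (g : GQ) (dm_ES.coe S ((c : ↥a.L.fixingSubgroup → dm_ES S) h))
      rw [hcoc g h, dm_ES.coe_add, mul_comm]
      rfl)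
    (fun g s hs => by
      show dm_ES.coe S ((c : ↥a.L.fixingSubgroup → dm_ES S) (g * s)) = dm_ES.coe S ((c : ↥a.L.fixingSubgroup → dm_ES S) g)
      rw [hlc g s (IntermediateField.fixingSubgroup_antitone hFb (Subgroup.mem_subgroupOf.1 hs))])
  have hβ' : ∀ σ : ↥a.L.fixingSubgroup, dm_ES.coe S ((c : ↥a.L.fixingSubgroup → dm_ES S) σ) * (σ : GQ) β = β := fun σ => hβ σ
  have hc1 : (c : ↥a.L.fixingSubgroup → dm_ES S) 1 = 0 := by
    have := hcoc 1 1
    simpa using this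
  -- `β` lies in the level `b`
  have hβb : β ∈ b.L := by
    rw [← InfiniteGalois.fixedField_fixingSubgroup b.L, IntermediateField.mem_fixedField_iff]
    intro s hs
    have h0 : (c : ↥a.L.fixingSubgroup → dm_ES S) ⟨s, hle hs⟩ = 0 := by
      have := hlc 1 ⟨s, hle hs⟩ (IntermediateField.fixingSubgroup_antitone hFb hs)
      rw [one_mul] at this
      rw [this, hc1]
    have h1 := hβ' ⟨s, hle hs⟩
    rw [h0, dm_ES.coe_zero, one_mul] at h1
    exact h1
  have hβb0 : (⟨β, hβb⟩ : b.L) ≠ 0 := fun h0 => hβ0 (congrArg Subtype.val h0)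
  set βu : (↥b.L)ˣ := Units.mk0 ⟨β, hβb⟩ hβb0 with hβu
  letI := id_levAlgebra hab
  -- invariance of the divisor of `β`
  have hD : ∀ σ ∈ b.rel a, σ • id_div S b.L βu = id_div S b.L βu := by
    rintro _ ⟨τ, hτ, rfl⟩
    rw [id_smul_div]
    apply Multiplicative.toAdd.injective
    ext w
    rw [id_div_apply, id_div_apply]
    unfold id_ordZ
    congr 2
    obtain ⟨q, hq, A, hA, hAw⟩ := s56eck_exists_valuationSubring S b.L w
    rw [← hAw, s56eck_val_transfer b.L A q.2 hA (Units.ne_zero βu), s56eck_fin_units_smul]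
    have h1 : ((b.q τ ((βu : (↥b.L)ˣ) : ↥b.L) : ↥b.L) : Qbar) = τ β := id_lev_q_coe b τ ⟨β, hβb⟩
    have h2 : (((βu : (↥b.L)ˣ) : ↥b.L) : Qbar) = β := rfl
    rw [h1, h2]
    have h3 := hβ' ⟨τ, hτ⟩
    have h4 := (dm_ES.coe_mem ((c : ↥a.L.fixingSubgroup → dm_ES S) ⟨τ, hτ⟩)).2 q hq A hA
    have h5 := congrArg A.valuation h3
    rw [map_mul, h4, one_mul] at h5
    exact h5
  -- descent to the level `a`
  obtain ⟨D₀, hD₀⟩ := (id_lev_isGal hab).Imap_range (S := S) (iu_levUnram S hab)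
    (id_div S b.L βu) hD
  refine ⟨β, D₀, hβ0, ⟨b.L, b.unr, hβb⟩, hβ', ?_⟩
  intro q hq A hA
  have h1 := s56eck_valuation_eq_ord S b.L b.unr q hq A hA βu
  have h2 : (((βu : (↥b.L)ˣ) : ↥b.L) : Qbar) = β := rfl
  rw [h2] at h1
  rw [h1]
  congr 2
  set w : id_P S b.L := ⟨pl_prime b.L A q.2 hA, s56eck_primeToS S b.L A q hq hA⟩ with hw
  have h3 : (id_Imap S a.L b.L D₀).toAdd w = id_ordZ b.L w.1 βu := by
    rw [hD₀, id_div_apply]
  rw [id_Imap_apply, iu_levUnram S hab w, Nat.cast_one, one_mul] at h3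
  have h4 : id_underP S a.L b.L w =
      ⟨pl_prime a.L A q.2 hA, s56eck_primeToS S a.L A q hq hA⟩ :=
    Subtype.ext (s56eck_under_prime S hab q.2 A hA)
  rw [← h3, h4]

/-- **Injectivity.**  If the divisors of `β` and `β'` have the same class in `Cl_S(K)`, the cocycles
`σ ↦ β / σ β` and `σ ↦ β' / σ β'` are cohomologous in `E_S`. -/
theorem s56eck_fin_key (c c' : lvZ1 (s56esh_LU (tl_levelsS S) a.L.fixingSubgroup) (dm_ES S))
    {β β' : Qbar} {D D' : id_I S a.L} (hβ0 : β ≠ 0) (hβ'0 : β' ≠ 0)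
    (hβF : ∃ F : IntermediateField ℚ Qbar, F.IsUnramifiedOutside S ∧ β ∈ F)
    (hβ'F : ∃ F : IntermediateField ℚ Qbar, F.IsUnramifiedOutside S ∧ β' ∈ F)
    (hc : ∀ σ : ↥a.L.fixingSubgroup,
      dm_ES.coe S ((c : ↥a.L.fixingSubgroup → dm_ES S) σ) * (σ : GQ) β = β)
    (hc' : ∀ σ : ↥a.L.fixingSubgroup,
      dm_ES.coe S ((c' : ↥a.L.fixingSubgroup → dm_ES S) σ) * (σ : GQ) β' = β')
    (hD : s56eck_IsDiv S a β D) (hD' : s56eck_IsDiv S a β' D')
    (h : (QuotientGroup.mk D : id_ClS S a.L) = QuotientGroup.mk D') :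
    lvH1mk (s56esh_LU (tl_levelsS S) a.L.fixingSubgroup) (dm_ES S) c =
      lvH1mk (s56esh_LU (tl_levelsS S) a.L.fixingSubgroup) (dm_ES S) c' := by
  obtain ⟨x, hx⟩ := QuotientGroup.eq.1 h
  obtain ⟨F, hF, hβF⟩ := hβF
  obtain ⟨F', hF', hβ'F⟩ := hβ'F
  have hx0 : (((x : (↥a.L)ˣ) : ↥a.L) : Qbar) ≠ 0 := by
    intro h0
    exact x.ne_zero (Subtype.ext h0)
  set e : Qbar := β * (((x : (↥a.L)ˣ) : ↥a.L) : Qbar) / β' with he
  have he0 : e ≠ 0 := div_ne_zero (mul_ne_zero hβ0 hx0) hβ'0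
  have hFF : (F ⊔ F' ⊔ a.L).IsUnramifiedOutside S := (hF.sup hF').sup a.unr
  have heF : e ∈ F ⊔ F' ⊔ a.L := by
    have h1 : β ∈ F ⊔ F' ⊔ a.L :=
      (le_trans (le_sup_left : F ≤ F ⊔ F') (le_sup_left : F ⊔ F' ≤ F ⊔ F' ⊔ a.L)) hβF
    have h2 : β' ∈ F ⊔ F' ⊔ a.L :=
      (le_trans (le_sup_right : F' ≤ F ⊔ F') (le_sup_left : F ⊔ F' ≤ F ⊔ F' ⊔ a.L)) hβ'F
    have h3 : (((x : (↥a.L)ˣ) : ↥a.L) : Qbar) ∈ F ⊔ F' ⊔ a.L :=
      (le_sup_right : a.L ≤ F ⊔ F' ⊔ a.L) (x : ↥a.L).2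
    exact div_mem (mul_mem h1 h3) h2
  have heS : ku_IsSUnit S e := by
    intro q hq A hA
    have h1 := hD q hq A hA
    have h2 := hD' q hq A hA
    have h3 := s56eck_valuation_eq_ord S a.L a.unr q hq A hA x
    have h4 : id_ordZ a.L (pl_prime a.L A q.2 hA) x =
        -D.toAdd ⟨pl_prime a.L A q.2 hA, s56eck_primeToS S a.L A q hq hA⟩ +
          D'.toAdd ⟨pl_prime a.L A q.2 hA, s56eck_primeToS S a.L A q hq hA⟩ := by
      have h5 : id_ordZ a.L (pl_prime a.L A q.2 hA) x = (id_div S a.L x).toAdd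
          ⟨pl_prime a.L A q.2 hA, s56eck_primeToS S a.L A q hq hA⟩ := rfl
      rw [h5, hx]
      rfl
    have ht0 : A.valuation (((q : ℕ) : Qbar)) ≠ 0 :=
      (Valuation.ne_zero_iff _).2 (Nat.cast_ne_zero.2 q.2.ne_zero)
    rw [he, map_div₀, map_mul, h1, h2, h3, h4, map_zpow₀, map_zpow₀, map_zpow₀,
      ← zpow_add₀ ht0, ← zpow_sub₀ ht0]
    have h6 : D.toAdd ⟨pl_prime a.L A q.2 hA, s56eck_primeToS S a.L A q hq hA⟩ +
        (-D.toAdd ⟨pl_prime a.L A q.2 hA, s56eck_primeToS S a.L A q hq hA⟩ +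
          D'.toAdd ⟨pl_prime a.L A q.2 hA, s56eck_primeToS S a.L A q hq hA⟩) -
        D'.toAdd ⟨pl_prime a.L A q.2 hA, s56eck_primeToS S a.L A q hq hA⟩ = 0 := by ring
    rw [h6, zpow_zero]
  set ε : dm_ES S := dm_ES.mk e he0 (F ⊔ F' ⊔ a.L) hFF heF heS with hε
  refine (lvH1mk_eq_iff c c').2 ⟨-ε, ?_⟩
  funext σ
  rw [lvD0_apply, Pi.sub_apply]
  have key : (c : ↥a.L.fixingSubgroup → dm_ES S) σ + (σ : GQ) • ε =
      (c' : ↥a.L.fixingSubgroup → dm_ES S) σ + ε := by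
    apply dm_ES.coe_injective
    rw [dm_ES.coe_add, dm_ES.coe_add, dm_ES.coe_smul, hε, dm_ES.coe_mk]
    have hσx : (σ : GQ) (((x : (↥a.L)ˣ) : ↥a.L) : Qbar) = (((x : (↥a.L)ˣ) : ↥a.L) : Qbar) :=
      (IntermediateField.mem_fixingSubgroup_iff _ _).1 σ.2 _ (x : ↥a.L).2
    have hB' : (σ : GQ) β' ≠ 0 := (map_ne_zero_iff _ (σ : GQ).injective).2 hβ'0
    have h1 := hc σ
    have h2 := hc' σ
    rw [he, map_div₀, map_mul, hσx, mul_div_assoc', mul_div_assoc', div_eq_div_iff hB' hβ'0]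
    linear_combination ((((x : (↥a.L)ˣ) : ↥a.L) : Qbar) * β') * h1 -
      (β * (((x : (↥a.L)ˣ) : ↥a.L) : Qbar)) * h2
  have h7 : σ • (-ε) - (-ε) = ε - (σ : GQ) • ε := by
    rw [smul_neg, sub_neg_eq_add, neg_add_eq_sub]
    rfl
  rw [h7, sub_eq_sub_iff_add_eq_add, add_comm]
  exact key.symm

/-- **Finiteness of `H¹(G_{K,S}, E_S)`**: it injects into the `S`-class group of `K`. -/
theorem s56eck_fin_V :
    Finite (lvH1 (s56esh_LU (tl_levelsS S) a.L.fixingSubgroup) (dm_ES S)) := by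
  classical
  choose rep hrep using (lvH1mk_surjective
    (L := s56esh_LU (tl_levelsS S) a.L.fixingSubgroup) (X := dm_ES S))
  choose β D hβ0 hβF hc hD using fun z => s56eck_fin_h90 S a (rep z)
  apply Finite.of_injective (fun z => (QuotientGroup.mk (D z) : id_ClS S a.L))
  intro z z' h
  rw [← hrep z, ← hrep z']
  exact s56eck_fin_key S a (rep z) (rep z') (hβ0 z) (hβ0 z') (hβF z) (hβF z') (hc z) (hc z')
    (hD z) (hD z') h

/-- **Finiteness of `H¹(G_{ℚ,S}, Coind E_S)`** (Shapiro). -/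
theorem s56eck_fin_coind :
    Finite (lvH1 (tl_levelsS S)
      (s56esh_Coind (tl_levelsS S) a.L.fixingSubgroup (dm_ES S))) := by
  haveI := s56eck_fin_V S a
  have hU : ∃ V ∈ (tl_levelsS S).levels, V ≤ a.L.fixingSubgroup :=
    ⟨_, a.fixingSubgroup_mem_levels, le_rfl⟩
  have hN : (s56esh_LU (tl_levelsS S) a.L.fixingSubgroup).IsSmooth (dm_ES S) :=
    s56esh_smooth_res (dm_isSmooth_ES S)
  exact Finite.of_injective _ (s56esh_H1_bijective hU hN).1

end Fin

end Fermat.Agent.S56
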