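import Mathlib
import Fermat.Agent.S56.GW.EC.Kum.Fin

/-!
# S56, [GW-EC], cell [EC-KUM]: finiteness of `H¹(G_{K,S}, E_S)` for any normal `K` (`s56eck_finK_`)

The same statement as `Kum/Fin.lean`, for an arbitrary normal number field `K ⊆ ℚ̄` unramified
outside `S` (not necessarily a level of `du_Lev S`, i.e. not necessarily containing the roots of
unity of order `q ∈ S`):

* **`s56eck_finK_V`** : `Finite (lvH1 (s56esh_LU (tl_levelsS S) K.fixingSubgroup) (dm_ES S))`;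
* **`s56eck_finK_coind`** : the same for the coinduced module over `G_ℚ` (Shapiro).

The proof is the injection into `id_ClS S K` of `Kum/Fin.lean`; the auxiliary level `b ⊇ K` is a
level of `du_Lev S`.
-/

set_option autoImplicit false
set_option linter.unusedSectionVars false
set_option linter.style.haveILetI false

namespace Fermat.Agent.S56

open Fermat.Agent.S55 NumberField IsDedekindDomain

local notation "Qbar" => AlgebraicClosure ℚ
local notation "GQ" => (AlgebraicClosure ℚ ≃ₐ[ℚ] AlgebraicClosure ℚ)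

section FinK

variable (S : Finset Nat.Primes) (K : IntermediateField ℚ Qbar) [NumberField K]

/-- The inclusion of `K` in a level as an algebra structure. -/
@[reducible] noncomputable def s56eck_finK_algebra {b : du_Lev S} (h : K ≤ b.L) : Algebra K b.L :=
  (IntermediateField.inclusion h).toRingHom.toAlgebra

/-- The prime below a place of `ℚ̄` is compatible with the inclusion `K ≤ b.L`. -/
theorem s56eck_finK_under_prime {b : du_Lev S} (h : K ≤ b.L) {ℓ : ℕ} (hℓ : ℓ.Prime)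
    (A : ValuationSubring Qbar) (hA : A.LiesOverPrime ℓ) :
    letI := s56eck_finK_algebra S K h
    id_under K b.L (pl_prime b.L A hℓ hA) = pl_prime K A hℓ hA := by
  letI := s56eck_finK_algebra S K h
  apply HeightOneSpectrum.ext
  ext x
  rw [id_under_asIdeal, Ideal.under_def, Ideal.mem_comap]
  show algebraMap (𝓞 K) (𝓞 b.L) x ∈ pl_ideal b.L A ↔ x ∈ pl_ideal K A
  rw [pl_mem_ideal, pl_mem_ideal]
  rfl

/-- `b.L / K` is Galois with group the image of `Gal(ℚ̄/K)`. -/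
theorem s56eck_finK_isGal {b : du_Lev S} (h : K ≤ b.L) :
    letI := s56eck_finK_algebra S K h
    id_IsGal K b.L (K.fixingSubgroup.map b.q) := by
  letI := s56eck_finK_algebra S K h
  haveI := id_qbarIsGalois
  constructor
  · rintro _ ⟨τ, hτ, rfl⟩ x
    apply Subtype.ext
    rw [id_lev_q_coe]
    exact hτ ⟨(x : Qbar), x.2⟩
  · intro y hy
    have h1 : (y : Qbar) ∈ IntermediateField.fixedField K.fixingSubgroup := by
      rw [IntermediateField.mem_fixedField_iff]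
      intro τ hτ
      have h2 := hy (b.q τ) ⟨τ, hτ, rfl⟩
      have h3 := congrArg (fun z : b.L => (z : Qbar)) h2
      simp only [id_lev_q_coe] at h3
      exact h3
    rw [InfiniteGalois.fixedField_fixingSubgroup] at h1
    exact ⟨⟨(y : Qbar), h1⟩, Subtype.ext rfl⟩

/-- `D ∈ I^S(K)` computes the valuations of `β` at the places of `ℚ̄` outside `S`. -/
def s56eck_finK_IsDiv (β : Qbar) (D : id_I S K) : Prop :=
  ∀ (q : Nat.Primes) (hq : q ∉ S) (A : ValuationSubring Qbar) (hA : A.LiesOverPrime (q : ℕ)),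
    A.valuation β = A.valuation (((q : ℕ) : Qbar) ^
      (D.toAdd ⟨pl_prime K A q.2 hA, s56eck_primeToS S K A q hq hA⟩))

/-- **Hilbert 90 + descent of divisors.**  A level-constant cocycle `c : G_K → E_S` is
`σ ↦ β / σ β` for some `β ≠ 0` of a level, and `β` has a divisor in `I^S(K)`. -/
theorem s56eck_finK_h90 (hK : K.IsUnramifiedOutside S)
    (c : lvZ1 (s56esh_LU (tl_levelsS S) K.fixingSubgroup) (dm_ES S)) :
    ∃ (β : Qbar) (D : id_I S K), β ≠ 0 ∧
      (∃ F : IntermediateField ℚ Qbar, F.IsUnramifiedOutside S ∧ β ∈ F) ∧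
      (∀ σ : ↥K.fixingSubgroup,
        dm_ES.coe S ((c : ↥K.fixingSubgroup → dm_ES S) σ) * (σ : GQ) β = β) ∧
      s56eck_finK_IsDiv S K β D := by
  classical
  haveI := id_qbarIsGalois
  obtain ⟨hcoc, U, ⟨U', ⟨F, hF, rfl⟩, rfl⟩, hlc⟩ := c.2
  obtain ⟨b, hb⟩ := du_Lev.exists_ge_field (K ⊔ F) (hK.sup hF)
  have hab : K ≤ b.L := le_trans le_sup_left hb
  have hFb : F ≤ b.L := le_trans le_sup_right hb
  have hle : b.L.fixingSubgroup ≤ K.fixingSubgroup :=
    IntermediateField.fixingSubgroup_antitone hab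
  have hfi : b.L.fixingSubgroup.FiniteIndex := tl_finiteIndex_fixingSubgroup b.L
  have hfi' : (b.L.fixingSubgroup.subgroupOf K.fixingSubgroup).FiniteIndex := inferInstance
  let m : ↥K.fixingSubgroup → Qbar :=
    fun h => dm_ES.coe S ((c : ↥K.fixingSubgroup → dm_ES S) h)
  obtain ⟨β, hβ0, hβ⟩ := tl_h90_of_finiteIndex (H := ↥K.fixingSubgroup) (Ω := Qbar)
    b.L.toSubfield (b.L.fixingSubgroup.subgroupOf K.fixingSubgroup)
    (fun s => by
      rw [Subgroup.mem_subgroupOf, IntermediateField.mem_fixingSubgroup_iff]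
      rfl)
    m (fun h => dm_ES.coe_ne_zero _)
    (fun g h => by
      show dm_ES.coe S ((c : ↥K.fixingSubgroup → dm_ES S) (g * h)) =
        dm_ES.coe S ((c : ↥K.fixingSubgroup → dm_ES S) g) *
        (g : GQ) (dm_ES.coe S ((c : ↥K.fixingSubgroup → dm_ES S) h))
      rw [hcoc g h, dm_ES.coe_add, mul_comm]
      rfl)
    (fun g s hs => by
      show dm_ES.coe S ((c : ↥K.fixingSubgroup → dm_ES S) (g * s)) =
        dm_ES.coe S ((c : ↥K.fixingSubgroup → dm_ES S) g)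
      rw [hlc g s (IntermediateField.fixingSubgroup_antitone hFb (Subgroup.mem_subgroupOf.1 hs))])
  have hβ' : ∀ σ : ↥K.fixingSubgroup,
      dm_ES.coe S ((c : ↥K.fixingSubgroup → dm_ES S) σ) * (σ : GQ) β = β := fun σ => hβ σ
  have hc1 : (c : ↥K.fixingSubgroup → dm_ES S) 1 = 0 := by
    have := hcoc 1 1
    simpa using this
  -- `β` lies in the level `b`
  have hβb : β ∈ b.L := by
    rw [← InfiniteGalois.fixedField_fixingSubgroup b.L, IntermediateField.mem_fixedField_iff]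
    intro s hs
    have h0 : (c : ↥K.fixingSubgroup → dm_ES S) ⟨s, hle hs⟩ = 0 := by
      have := hlc 1 ⟨s, hle hs⟩ (IntermediateField.fixingSubgroup_antitone hFb hs)
      rw [one_mul] at this
      rw [this, hc1]
    have h1 := hβ' ⟨s, hle hs⟩
    rw [h0, dm_ES.coe_zero, one_mul] at h1
    exact h1
  have hβb0 : (⟨β, hβb⟩ : b.L) ≠ 0 := fun h0 => hβ0 (congrArg Subtype.val h0)
  set βu : (↥b.L)ˣ := Units.mk0 ⟨β, hβb⟩ hβb0 with hβu
  letI := s56eck_finK_algebra S K hab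
  -- invariance of the divisor of `β`
  have hD : ∀ σ ∈ K.fixingSubgroup.map b.q, σ • id_div S b.L βu = id_div S b.L βu := by
    rintro _ ⟨τ, hτ, rfl⟩
    rw [id_smul_div]
    apply Multiplicative.toAdd.injective
    ext w
    rw [id_div_apply, id_div_apply]
    unfold id_ordZ
    congr 2
    obtain ⟨q, hq, A, hA, hAw⟩ := s56eck_exists_valuationSubring S b.L w
    rw [← hAw, s56eck_val_transfer b.L A q.2 hA (Units.ne_zero βu), s56eck_fin_units_smul]
    have h1 : ((b.q τ ((βu : (↥b.L)ˣ) : ↥b.L) : ↥b.L) : Qbar) = τ β := id_lev_q_coe b τ ⟨β, hβb⟩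
    have h2 : (((βu : (↥b.L)ˣ) : ↥b.L) : Qbar) = β := rfl
    rw [h1, h2]
    have h3 := hβ' ⟨τ, hτ⟩
    have h4 := (dm_ES.coe_mem ((c : ↥K.fixingSubgroup → dm_ES S) ⟨τ, hτ⟩)).2 q hq A hA
    have h5 := congrArg A.valuation h3
    rw [map_mul, h4, one_mul] at h5
    exact h5
  -- the extension `b.L / K` is unramified outside `S`
  have hunr : ∀ w : id_P S b.L, id_e K b.L w.1 = 1 := by
    intro w
    obtain ⟨ℓ, hℓ, hmem⟩ := pl_exists_prime_mem b.L w.1
    exact iu_e_eq_one K b.L w.1 ℓ (iu_valuation_prime S b.L b.unr w.1 w.2 ℓ hℓ hmem)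
  -- descent to `K`
  obtain ⟨D₀, hD₀⟩ := (s56eck_finK_isGal S K hab).Imap_range (S := S) hunr
    (id_div S b.L βu) hD
  refine ⟨β, D₀, hβ0, ⟨b.L, b.unr, hβb⟩, hβ', ?_⟩
  intro q hq A hA
  have h1 := s56eck_valuation_eq_ord S b.L b.unr q hq A hA βu
  have h2 : (((βu : (↥b.L)ˣ) : ↥b.L) : Qbar) = β := rfl
  rw [h2] at h1
  rw [h1]
  congr 2
  set w : id_P S b.L := ⟨pl_prime b.L A q.2 hA, s56eck_primeToS S b.L A q hq hA⟩ with hw
  have h3 : (id_Imap S K b.L D₀).toAdd w = id_ordZ b.L w.1 βu := by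
    rw [hD₀, id_div_apply]
  rw [id_Imap_apply, hunr w, Nat.cast_one, one_mul] at h3
  have h4 : id_underP S K b.L w =
      ⟨pl_prime K A q.2 hA, s56eck_primeToS S K A q hq hA⟩ :=
    Subtype.ext (s56eck_finK_under_prime S K hab q.2 A hA)
  rw [← h3, h4]

variable [Normal ℚ K]

/-- **Injectivity.**  If the divisors of `β` and `β'` have the same class in `Cl_S(K)`, the cocycles
`σ ↦ β / σ β` and `σ ↦ β' / σ β'` are cohomologous in `E_S`. -/
theorem s56eck_finK_key (hK : K.IsUnramifiedOutside S)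
    (c c' : lvZ1 (s56esh_LU (tl_levelsS S) K.fixingSubgroup) (dm_ES S))
    {β β' : Qbar} {D D' : id_I S K} (hβ0 : β ≠ 0) (hβ'0 : β' ≠ 0)
    (hβF : ∃ F : IntermediateField ℚ Qbar, F.IsUnramifiedOutside S ∧ β ∈ F)
    (hβ'F : ∃ F : IntermediateField ℚ Qbar, F.IsUnramifiedOutside S ∧ β' ∈ F)
    (hc : ∀ σ : ↥K.fixingSubgroup,
      dm_ES.coe S ((c : ↥K.fixingSubgroup → dm_ES S) σ) * (σ : GQ) β = β)
    (hc' : ∀ σ : ↥K.fixingSubgroup,
      dm_ES.coe S ((c' : ↥K.fixingSubgroup → dm_ES S) σ) * (σ : GQ) β' = β')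
    (hD : s56eck_finK_IsDiv S K β D) (hD' : s56eck_finK_IsDiv S K β' D')
    (h : (QuotientGroup.mk D : id_ClS S K) = QuotientGroup.mk D') :
    lvH1mk (s56esh_LU (tl_levelsS S) K.fixingSubgroup) (dm_ES S) c =
      lvH1mk (s56esh_LU (tl_levelsS S) K.fixingSubgroup) (dm_ES S) c' := by
  obtain ⟨x, hx⟩ := QuotientGroup.eq.1 h
  obtain ⟨F, hF, hβF⟩ := hβF
  obtain ⟨F', hF', hβ'F⟩ := hβ'F
  have hx0 : (((x : (↥K)ˣ) : ↥K) : Qbar) ≠ 0 := by
    intro h0
    exact x.ne_zero (Subtype.ext h0)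
  set e : Qbar := β * (((x : (↥K)ˣ) : ↥K) : Qbar) / β' with he
  have he0 : e ≠ 0 := div_ne_zero (mul_ne_zero hβ0 hx0) hβ'0
  have hFF : (F ⊔ F' ⊔ K).IsUnramifiedOutside S := (hF.sup hF').sup hK
  have heF : e ∈ F ⊔ F' ⊔ K := by
    have h1 : β ∈ F ⊔ F' ⊔ K :=
      (le_trans (le_sup_left : F ≤ F ⊔ F') (le_sup_left : F ⊔ F' ≤ F ⊔ F' ⊔ K)) hβF
    have h2 : β' ∈ F ⊔ F' ⊔ K :=
      (le_trans (le_sup_right : F' ≤ F ⊔ F') (le_sup_left : F ⊔ F' ≤ F ⊔ F' ⊔ K)) hβ'F
    have h3 : (((x : (↥K)ˣ) : ↥K) : Qbar) ∈ F ⊔ F' ⊔ K :=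
      (le_sup_right : K ≤ F ⊔ F' ⊔ K) (x : ↥K).2
    exact div_mem (mul_mem h1 h3) h2
  have heS : ku_IsSUnit S e := by
    intro q hq A hA
    have h1 := hD q hq A hA
    have h2 := hD' q hq A hA
    have h3 := s56eck_valuation_eq_ord S K hK q hq A hA x
    have h4 : id_ordZ K (pl_prime K A q.2 hA) x =
        -D.toAdd ⟨pl_prime K A q.2 hA, s56eck_primeToS S K A q hq hA⟩ +
          D'.toAdd ⟨pl_prime K A q.2 hA, s56eck_primeToS S K A q hq hA⟩ := by
      have h5 : id_ordZ K (pl_prime K A q.2 hA) x = (id_div S K x).toAdd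
          ⟨pl_prime K A q.2 hA, s56eck_primeToS S K A q hq hA⟩ := rfl
      rw [h5, hx]
      rfl
    have ht0 : A.valuation (((q : ℕ) : Qbar)) ≠ 0 :=
      (Valuation.ne_zero_iff _).2 (Nat.cast_ne_zero.2 q.2.ne_zero)
    rw [he, map_div₀, map_mul, h1, h2, h3, h4, map_zpow₀, map_zpow₀, map_zpow₀,
      ← zpow_add₀ ht0, ← zpow_sub₀ ht0]
    have h6 : D.toAdd ⟨pl_prime K A q.2 hA, s56eck_primeToS S K A q hq hA⟩ +
        (-D.toAdd ⟨pl_prime K A q.2 hA, s56eck_primeToS S K A q hq hA⟩ +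
          D'.toAdd ⟨pl_prime K A q.2 hA, s56eck_primeToS S K A q hq hA⟩) -
        D'.toAdd ⟨pl_prime K A q.2 hA, s56eck_primeToS S K A q hq hA⟩ = 0 := by ring
    rw [h6, zpow_zero]
  set ε : dm_ES S := dm_ES.mk e he0 (F ⊔ F' ⊔ K) hFF heF heS with hε
  refine (lvH1mk_eq_iff c c').2 ⟨-ε, ?_⟩
  funext σ
  rw [lvD0_apply, Pi.sub_apply]
  have key : (c : ↥K.fixingSubgroup → dm_ES S) σ + (σ : GQ) • ε =
      (c' : ↥K.fixingSubgroup → dm_ES S) σ + ε := by
    apply dm_ES.coe_injective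
    rw [dm_ES.coe_add, dm_ES.coe_add, dm_ES.coe_smul, hε, dm_ES.coe_mk]
    have hσx : (σ : GQ) (((x : (↥K)ˣ) : ↥K) : Qbar) = (((x : (↥K)ˣ) : ↥K) : Qbar) :=
      (IntermediateField.mem_fixingSubgroup_iff _ _).1 σ.2 _ (x : ↥K).2
    have hB' : (σ : GQ) β' ≠ 0 := (map_ne_zero_iff _ (σ : GQ).injective).2 hβ'0
    have h1 := hc σ
    have h2 := hc' σ
    rw [he, map_div₀, map_mul, hσx, mul_div_assoc', mul_div_assoc', div_eq_div_iff hB' hβ'0]
    linear_combination ((((x : (↥K)ˣ) : ↥K) : Qbar) * β') * h1 -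
      (β * (((x : (↥K)ˣ) : ↥K) : Qbar)) * h2
  have h7 : σ • (-ε) - (-ε) = ε - (σ : GQ) • ε := by
    rw [smul_neg, sub_neg_eq_add, neg_add_eq_sub]
    rfl
  rw [h7, sub_eq_sub_iff_add_eq_add, add_comm]
  exact key.symm

/-- **Finiteness of `H¹(G_{K,S}, E_S)`** for a normal number field `K` unramified outside `S`:
it injects into the `S`-class group of `K`. -/
theorem s56eck_finK_V (hK : K.IsUnramifiedOutside S) :
    Finite (lvH1 (s56esh_LU (tl_levelsS S) K.fixingSubgroup) (dm_ES S)) := by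
  classical
  choose rep hrep using (lvH1mk_surjective
    (L := s56esh_LU (tl_levelsS S) K.fixingSubgroup) (X := dm_ES S))
  choose β D hβ0 hβF hc hD using fun z => s56eck_finK_h90 S K hK (rep z)
  apply Finite.of_injective (fun z => (QuotientGroup.mk (D z) : id_ClS S K))
  intro z z' h
  rw [← hrep z, ← hrep z']
  exact s56eck_finK_key S K hK (rep z) (rep z') (hβ0 z) (hβ0 z') (hβF z) (hβF z') (hc z) (hc z')
    (hD z) (hD z') h

/-- **Finiteness of `H¹(G_{ℚ,S}, Coind E_S)`** (Shapiro). -/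
theorem s56eck_finK_coind (hK : K.IsUnramifiedOutside S) :
    Finite (lvH1 (tl_levelsS S)
      (s56esh_Coind (tl_levelsS S) K.fixingSubgroup (dm_ES S))) := by
  haveI := s56eck_finK_V S K hK
  have hU : ∃ V ∈ (tl_levelsS S).levels, V ≤ K.fixingSubgroup :=
    ⟨_, ⟨K, hK, rfl⟩, le_rfl⟩
  have hN : (s56esh_LU (tl_levelsS S) K.fixingSubgroup).IsSmooth (dm_ES S) :=
    s56esh_smooth_res (dm_isSmooth_ES S)
  exact Finite.of_injective _ (s56esh_H1_bijective hU hN).1

end FinK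

end Fermat.Agent.S56
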