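import Mathlib
import Fermat.Agent.S56.GW.EC.Kum.FinK
import Fermat.Agent.S56.GW.EC.Sh.Act
import Fermat.Agent.S56.GW.EC.Unit.LevField
import Fermat.Agent.S56.GW.EC.Base.Seams

/-!
# S56, [GW-EC]: `Fun(Δ, A) ≅ Coind_{ker π}^G A` and the seam (FIN) of [EC-BASE] (`s56eck_`)

* `s56eck_tfCoind L π hπ hsurj hA : s56eb_TF π A ≃+ s56esh_Coind L π.ker A`,
  `f ↦ (g ↦ g • f ((π g)⁻¹))`, for `π : G →* Δ` onto a finite group, `ker π` containing a level,
  `A` smooth; `s56eck_tfCoind_smul` : it is `G`-equivariant; `s56eck_tfCoind_smulΔ` : the right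
  translation by `π h` corresponds to helper16's second action `s56esh_T L π.ker A h`;
* **`s56eck_finTE_main : s56eb_Fin_stmt`** : `H¹(G_S, T_E)` is finite.
-/

set_option autoImplicit false
set_option linter.unusedSectionVars false
set_option linter.style.haveILetI false

namespace Fermat.Agent.S56

open Fermat.Agent.S55

local notation "Qbar" => AlgebraicClosure ℚ
local notation "GQ" => (AlgebraicClosure ℚ ≃ₐ[ℚ] AlgebraicClosure ℚ)

section TFCoind

variable {G : Type*} [Group G] {Δ : Type*} [Group Δ] [Finite Δ] (L : LevelSys G) (π : G →* Δ)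
  {A : Type*} [AddCommGroup A] [DistribMulAction G A]
  (hπ : ∃ U ∈ L.levels, U ≤ π.ker) (hA : L.IsSmooth A)

include hπ hA in
/-- The function `g ↦ g • f ((π g)⁻¹)` lies in the coinduced module. -/
theorem s56eck_tfCoind_mem (f : s56eb_TF π A) :
    (fun g : G => g • f ((π g)⁻¹)) ∈ s56esh_coind L π.ker A := by
  refine ⟨fun u x => ?_, ?_⟩
  · show ((u : G) * x) • f ((π ((u : G) * x))⁻¹) = (u : G) • (x • f ((π x)⁻¹))
    have hu : π (u : G) = 1 := MonoidHom.mem_ker.1 u.2
    rw [map_mul, hu, one_mul, mul_smul]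
  · obtain ⟨U, hU, hUπ⟩ := hπ
    obtain ⟨W, hW, hWU, -, hfix⟩ := hA.exists_level L (Set.finite_range (f : Δ → A)) hU
    refine ⟨W, hW, fun g s hs => ?_⟩
    show (g * s) • f ((π (g * s))⁻¹) = g • f ((π g)⁻¹)
    have h1 : π s = 1 := MonoidHom.mem_ker.1 (hUπ (hWU hs))
    rw [map_mul, h1, mul_one, mul_smul, hfix s hs _ ⟨(π g)⁻¹, rfl⟩]

/-- The forward map of `s56eck_tfCoind`. -/
def s56eck_tfCoindHom : s56eb_TF π A →+ s56esh_Coind L π.ker A where
  toFun f := ⟨fun g => g • f ((π g)⁻¹), s56eck_tfCoind_mem L π hπ hA f⟩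
  map_zero' := s56esh_coind_ext fun g => smul_zero g
  map_add' _ _ := s56esh_coind_ext fun g => smul_add g _ _

theorem s56eck_tfCoindHom_apply (f : s56eb_TF π A) (g : G) :
    ((s56eck_tfCoindHom L π hπ hA f : s56esh_Coind L π.ker A) : G → A) g = g • f ((π g)⁻¹) := rfl

variable (hsurj : Function.Surjective π)

/-- **`Fun(Δ, A) ≃+ Coind_{ker π}^G A`**, `f ↦ (g ↦ g • f ((π g)⁻¹))`. -/
noncomputable def s56eck_tfCoind : s56eb_TF π A ≃+ s56esh_Coind L π.ker A where
  toFun := s56eck_tfCoindHom L π hπ hA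
  invFun F := s56eb_TF.mk fun δ =>
    (Function.surjInv hsurj δ⁻¹)⁻¹ • (F : G → A) (Function.surjInv hsurj δ⁻¹)
  left_inv f := by
    ext δ
    show (Function.surjInv hsurj δ⁻¹)⁻¹ •
      ((Function.surjInv hsurj δ⁻¹) • f ((π (Function.surjInv hsurj δ⁻¹))⁻¹)) = f δ
    rw [inv_smul_smul, Function.surjInv_eq hsurj, inv_inv]
  right_inv F := by
    apply s56esh_coind_ext
    intro g
    show g • ((Function.surjInv hsurj (π g)⁻¹⁻¹)⁻¹ •
      (F : G → A) (Function.surjInv hsurj (π g)⁻¹⁻¹)) = (F : G → A) g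
    set s : G := Function.surjInv hsurj (π g)⁻¹⁻¹ with hs
    have hπs : π s = π g := by rw [hs, Function.surjInv_eq hsurj, inv_inv]
    have hu : s * g⁻¹ ∈ π.ker := by
      rw [MonoidHom.mem_ker, map_mul, map_inv, hπs, mul_inv_cancel]
    have h1 : (F : G → A) s = (s * g⁻¹) • (F : G → A) g := by
      have := s56esh_coind_equiv F ⟨s * g⁻¹, hu⟩ g
      rw [show ((⟨s * g⁻¹, hu⟩ : π.ker) : G) * g = s by
        show s * g⁻¹ * g = s
        rw [inv_mul_cancel_right]] at this
      exact this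
    rw [h1, ← mul_smul, ← mul_smul]
    have h2 : g * s⁻¹ * (s * g⁻¹) = 1 := by group
    rw [h2, one_smul]
  map_add' := map_add _

theorem s56eck_tfCoind_apply (f : s56eb_TF π A) (g : G) :
    ((s56eck_tfCoind L π hπ hA hsurj f : s56esh_Coind L π.ker A) : G → A) g =
      g • f ((π g)⁻¹) := rfl

/-- The isomorphism is `G`-equivariant. -/
theorem s56eck_tfCoind_smul (h : G) (f : s56eb_TF π A) :
    s56eck_tfCoind L π hπ hA hsurj (h • f) = h • s56eck_tfCoind L π hπ hA hsurj f := by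
  apply s56esh_coind_ext
  intro g
  rw [s56esh_smul_apply, s56eck_tfCoind_apply, s56eck_tfCoind_apply, s56eb_TF.smulG_apply,
    ← mul_smul, map_mul, mul_inv_rev]

/-- The right translation by `π h` on `Fun(Δ, A)` is the second action `T_h` on the coinduced
module. -/
theorem s56eck_tfCoind_smulΔ (h : G) (f : s56eb_TF π A) :
    s56eck_tfCoind L π hπ hA hsurj (π h • f) =
      s56esh_T L π.ker A h (s56eck_tfCoind L π hπ hA hsurj f) := by
  apply s56esh_coind_ext
  intro g
  rw [s56esh_T_apply, s56eck_tfCoind_apply, s56eck_tfCoind_apply, s56eb_TF.smulΔ_apply,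
    ← mul_smul, mul_inv_cancel_left, map_mul, map_inv, mul_inv_rev, inv_inv]

end TFCoind

/-- **Seam (FIN) of [EC-BASE]**: `H¹(G_S, T_E)` is finite (it injects into `Cl_S(K)`, `K` the level
field of `π`). -/
theorem s56eck_finTE_main : s56eb_Fin_stmt := by
  intro p _ _ S _ Δ _ _ π χ hπ
  have hsm := hπ.smooth
  haveI := s56ecu_levK_numberField π hsm
  haveI := s56ecu_levK_normal π hsm
  have hK : (s56ecu_levK π).IsUnramifiedOutside S := s56ecu_levK_unr π hsm S hπ.unr
  have hfix : (s56ecu_levK π).fixingSubgroup = π.ker := s56ecu_levK_fixingSubgroup π hsm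
  have hfin := s56eck_finK_coind S (s56ecu_levK π) hK
  rw [hfix] at hfin
  have hlev : ∃ U ∈ (tl_levelsS S).levels, U ≤ π.ker :=
    ⟨_, ⟨s56ecu_levK π, hK, rfl⟩, hfix.le⟩
  exact Finite.of_equiv _ (s56eb_lvH1_congr (tl_levelsS S)
    (s56eck_tfCoind (tl_levelsS S) π hlev (dm_isSmooth_ES S) hπ.surj)
    (s56eck_tfCoind_smul (tl_levelsS S) π hlev (dm_isSmooth_ES S) hπ.surj)).symm.toEquiv

end Fermat.Agent.S56
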