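import Mathlib
import Fermat.Agent.S56.GW.EC.Sh.HS

/-!
# S56, [GW-EC], cell [EC-KUM]: `H¹` of a module with trivial action of a normal subgroup (`s56eck_`)

Level formalism of S55 + helper16's Hochschild–Serre (`Sh/HS.lean`).  `G` a group with a level system
`L`, `V ⊴ G` a normal subgroup containing a level, `N` a smooth `G`-module killed by `p` on which
`V` acts trivially, `p ∤ [G : V]`.  Then restriction to `V` is an isomorphism

`lvH1 L N ≃ {c : V → N | additive, level-constant, c (g⁻¹ v g) = g⁻¹ • c v}` :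

* `s56eck_ZV L V N` : the right-hand side, an `AddSubgroup (↥V → N)`;
* `s56eck_resV` : the restriction map `lvH1 L N →+ ↥(s56eck_ZV L V N)`;
* `s56eck_resV_bijective`.
-/

set_option autoImplicit false
set_option linter.unusedSectionVars false

namespace Fermat.Agent.S56

open Fermat.Agent.S55 groupCohomology

section HS1

variable {G : Type*} [Group G] (L : LevelSys G) (V : Subgroup G) [hVn : V.Normal]
  (N : Type*) [AddCommGroup N] [DistribMulAction G N]

/-- Additive, level-constant, conjugation-equivariant functions `V → N`. -/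
def s56eck_ZV : AddSubgroup (↥V → N) where
  carrier := {c | (∀ v w : ↥V, c (v * w) = c v + c w) ∧ (s56esh_LU L V).IsLC1 c ∧
    ∀ (g : G) (v : ↥V), c (s56esh_cjV V g v) = g⁻¹ • c v}
  zero_mem' := ⟨fun _ _ => by simp, LevelSys.isLC1_const (0 : N), fun _ _ => by simp⟩
  add_mem' := by
    rintro c c' ⟨h1, h2, h3⟩ ⟨h1', h2', h3'⟩
    refine ⟨fun v w => ?_, h2.add h2', fun g v => ?_⟩
    · simp only [Pi.add_apply, h1, h1']
      abel
    · simp only [Pi.add_apply, h3, h3', smul_add]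
  neg_mem' := by
    rintro c ⟨h1, h2, h3⟩
    refine ⟨fun v w => ?_, h2.neg, fun g v => ?_⟩
    · simp only [Pi.neg_apply, h1]
      abel
    · simp only [Pi.neg_apply, h3, smul_neg]

variable {L V N}

theorem s56eck_mem_ZV {c : ↥V → N} : c ∈ s56eck_ZV L V N ↔
    (∀ v w : ↥V, c (v * w) = c v + c w) ∧ (s56esh_LU L V).IsLC1 c ∧
      ∀ (g : G) (v : ↥V), c (s56esh_cjV V g v) = g⁻¹ • c v := Iff.rfl

/-- The restriction of a cocycle of `G` to `V` lies in `s56eck_ZV`. -/
theorem s56eck_restrict_mem (hVN : ∀ v : ↥V, ∀ n : N, (v : G) • n = n) (c : lvZ1 L N) :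
    (fun v : ↥V => (c : G → N) (v : G)) ∈ s56eck_ZV L V N := by
  have hc : IsCocycle₁ (c : G → N) := c.2.1
  refine ⟨fun v w => ?_, ?_, fun g v => ?_⟩
  · show (c : G → N) ((v : G) * (w : G)) = _
    rw [hc, hVN, add_comm]
  · exact (s56esh_res L V N).isLC1_pull1 c.2.2
  · show (c : G → N) (g⁻¹ * (v : G) * g) = g⁻¹ • (c : G → N) (v : G)
    have h0 : (c : G → N) 1 = 0 := by
      have := hc 1 1
      simpa using this
    have h1 : g⁻¹ • (c : G → N) g + (c : G → N) g⁻¹ = 0 := by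
      have := hc g⁻¹ g
      rw [inv_mul_cancel, h0] at this
      exact this.symm
    rw [mul_assoc, hc, hc, hVN, smul_add]
    have h2 : g⁻¹ • (c : G → N) g + g⁻¹ • (c : G → N) (v : G) + (c : G → N) g⁻¹ =
        g⁻¹ • (c : G → N) (v : G) + (g⁻¹ • (c : G → N) g + (c : G → N) g⁻¹) := by abel
    rw [h2, h1, add_zero]

/-- Restriction to `V` on cocycles. -/
def s56eck_resZ (hVN : ∀ v : ↥V, ∀ n : N, (v : G) • n = n) : lvZ1 L N →+ ↥(s56eck_ZV L V N) where
  toFun c := ⟨fun v : ↥V => (c : G → N) (v : G), s56eck_restrict_mem hVN c⟩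
  map_zero' := rfl
  map_add' _ _ := rfl

theorem s56eck_resZ_apply (hVN : ∀ v : ↥V, ∀ n : N, (v : G) • n = n) (c : lvZ1 L N) (v : ↥V) :
    ((s56eck_resZ hVN c : ↥(s56eck_ZV L V N)) : ↥V → N) v = (c : G → N) (v : G) := rfl

/-- Restriction to `V` on classes. -/
def s56eck_resV (hVN : ∀ v : ↥V, ∀ n : N, (v : G) • n = n) : lvH1 L N →+ ↥(s56eck_ZV L V N) :=
  QuotientAddGroup.lift _ (s56eck_resZ hVN) (by
    rintro c hc
    rw [AddSubgroup.mem_addSubgroupOf] at hc
    obtain ⟨n, hn⟩ := hc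
    apply Subtype.ext
    funext v
    rw [s56eck_resZ_apply, ← hn, lvD0_apply, hVN, sub_self]
    rfl)

theorem s56eck_resV_mk (hVN : ∀ v : ↥V, ∀ n : N, (v : G) • n = n) (c : lvZ1 L N) :
    s56eck_resV hVN (lvH1mk L N c) = s56eck_resZ hVN c := rfl

/-- An element of `s56eck_ZV` as a cocycle on `V`. -/
theorem s56eck_ZV_mem_lvZ1 (hVN : ∀ v : ↥V, ∀ n : N, (v : G) • n = n) (c : ↥(s56eck_ZV L V N)) :
    (c : ↥V → N) ∈ lvZ1 (s56esh_LU L V) N := by
  refine ⟨fun v w => ?_, c.2.2.1⟩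
  rw [c.2.1]
  show _ = (v : G) • (c : ↥V → N) w + _
  rw [hVN, add_comm]

/-- **Hochschild–Serre for trivial `V`-action**: restriction `lvH1 L N → s56eck_ZV L V N` is
bijective when `p N = 0` and `p ∤ [G : V]`. -/
theorem s56eck_resV_bijective (hV : ∃ W ∈ L.levels, W ≤ V) (hN : L.IsSmooth N)
    {p : ℕ} (hp : p.Prime) (hpN : ∀ n : N, p • n = 0) (hpV : ¬ p ∣ V.index)
    (hVN : ∀ v : ↥V, ∀ n : N, (v : G) • n = n) :
    Function.Bijective (s56eck_resV (L := L) hVN) := by
  obtain ⟨hinj, hrange⟩ := s56esh_hs_H1 (L := L) (V := V) (X := N) hV hN hp hpN hpV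
  -- coboundaries on `V` vanish
  have hB : ∀ (c c' : lvZ1 (s56esh_LU L V) N),
      lvH1mk (s56esh_LU L V) N c = lvH1mk (s56esh_LU L V) N c' → (c : ↥V → N) = c' := by
    intro c c' h
    obtain ⟨n, hn⟩ := (lvH1mk_eq_iff c c').1 h
    funext v
    have := congrFun hn v
    rw [lvD0_apply, Pi.sub_apply] at this
    have h2 : v • n = n := hVN v n
    rw [h2, sub_self] at this
    exact (sub_eq_zero.1 this.symm)
  constructor
  · -- injective
    rw [injective_iff_map_eq_zero]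
    intro z hz
    obtain ⟨c, rfl⟩ := lvH1mk_surjective z
    apply hinj
    rw [map_zero, LvMor.H1_mk, lvH1mk_eq_zero_iff]
    refine ⟨0, ?_⟩
    funext v
    rw [map_zero, LvMor.Z1_coe, LvMor.pull1_apply]
    have := congrArg (fun f : ↥(s56eck_ZV L V N) => (f : ↥V → N) v) hz
    rw [s56eck_resV_mk] at this
    exact this.symm
  · -- surjective
    intro c₀
    let c' : lvZ1 (s56esh_LU L V) N := ⟨(c₀ : ↥V → N), s56eck_ZV_mem_lvZ1 hVN c₀⟩
    have hinv : ∀ g : G, (s56esh_conjV L V N g).H1 (lvH1mk _ N c') = lvH1mk _ N c' := by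
      intro g
      rw [LvMor.H1_mk]
      congr 1
      apply Subtype.ext
      funext v
      rw [LvMor.Z1_coe, LvMor.pull1_apply]
      show g • (c₀ : ↥V → N) (s56esh_cjV V g v) = (c₀ : ↥V → N) v
      rw [c₀.2.2.2, smul_smul, mul_inv_cancel, one_smul]
    obtain ⟨z, hz⟩ := (hrange (lvH1mk _ N c')).2 hinv
    obtain ⟨c, rfl⟩ := lvH1mk_surjective z
    refine ⟨lvH1mk L N c, ?_⟩
    rw [LvMor.H1_mk] at hz
    have := hB _ _ hz
    apply Subtype.ext
    funext v
    rw [s56eck_resV_mk, s56eck_resZ_apply]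
    have h2 := congrFun this v
    rw [LvMor.Z1_coe, LvMor.pull1_apply] at h2
    exact h2

end HS1

end Fermat.Agent.S56
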