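import Mathlib
import Fermat.Agent.S56.Kum.Cyclo
import Fermat.Agent.S55.Trans.LocH90
import Fermat.Agent.S55.Kummer.Unram
import Fermat.Agent.S55.LevelFamily

/-!
# S56, [GW-EC], cell [EC-KUM], `H¹` half: Kummer theory over a level field (prefix `s56eck_`)

`F ⊆ Q̄` a number field containing `ζ = s56k_zeta p`, `G_F = F.fixingSubgroup ≤ G_ℚ`.  For
`β ∈ Q̄ˣ` with `β ^ p ∈ F` the Kummer function `κ_β = s56k_kum p β : G_ℚ → ZMod p`
(`σ β = ζ ^ κ_β(σ) · β`, `Kum/Cyclo.lean`) restricts to a homomorphism `G_F → ZMod p`.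

* `s56eck_chi_fix` : `χ = 1` on `G_F`;
* `s56eck_kum_add` : `κ_β (σ τ) = κ_β σ + κ_β τ` on `G_F`;  `s56eck_kum_mul` :
  `κ_{β β'} = κ_β + κ_β'` on `G_F`;  `s56eck_kum_of_mem` : `κ_β = 0` on `G_F` for `β ∈ F`;
* `s56eck_kum_conj` (equivariance) : `κ_{g β} (σ) = χ(g) · κ_β (g⁻¹ σ g)`;
* `s56eck_mem_of_kum_zero` (injectivity) : `κ_β = 0` on `G_F` ⟹ `β ∈ F`;
* `s56eck_kum_level` : if `β ^ p` is locally a `p`-th power up to units outside `S`
  (`ku_IsLocalPow`), `κ_β` is constant modulo `Fix F'`, `F' = F(β)` unramified outside `S`;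
* **`s56eck_h90`** (surjectivity) : every homomorphism `c : G_F → ZMod p` which is constant modulo
  `Fix F'` (`F' ⊇ F` finite) is `κ_β` on `G_F` for some `β ∈ F'ˣ` with `β ^ p ∈ F`
  (Hilbert 90 in the Poincaré-series form `tl_h90_of_finiteIndex` of S55).
-/

set_option autoImplicit false
set_option linter.unusedSectionVars false
set_option linter.style.haveILetI false

namespace Fermat.Agent.S56

open Fermat.Agent.S55

local notation "Qbar" => AlgebraicClosure ℚ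
local notation "GQ" => (AlgebraicClosure ℚ ≃ₐ[ℚ] AlgebraicClosure ℚ)

/-- Instance-path repair. -/
local instance s56eck_qbarIsAlgebraic : Algebra.IsAlgebraic ℚ (AlgebraicClosure ℚ) :=
  AlgebraicClosure.isAlgebraic ℚ

local instance s56eck_qbarIsAlgClosure : IsAlgClosure ℚ (AlgebraicClosure ℚ) :=
  ⟨inferInstance, inferInstance⟩

variable {p : ℕ} [hp : Fact p.Prime] {F : IntermediateField ℚ Qbar}

/-- `χ = 1` on `G_F` when `ζ ∈ F`. -/
theorem s56eck_chi_fix (hζ : s56k_zeta p ∈ F) {σ : GQ} (hσ : σ ∈ F.fixingSubgroup) :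
    s56k_chi p σ = 1 :=
  s56k_chi_of_fix p σ ((IntermediateField.mem_fixingSubgroup_iff F σ).1 hσ _ hζ)

theorem s56eck_fix_pow {β : Qbar} (hβF : β ^ p ∈ F) {σ : GQ} (hσ : σ ∈ F.fixingSubgroup) :
    σ (β ^ p) = β ^ p :=
  (IntermediateField.mem_fixingSubgroup_iff F σ).1 hσ _ hβF

/-- `κ_β` is additive on `G_F`. -/
theorem s56eck_kum_add (hζ : s56k_zeta p ∈ F) {β : Qbar} (hβ : β ≠ 0) (hβF : β ^ p ∈ F)
    {σ τ : GQ} (hσ : σ ∈ F.fixingSubgroup) (hτ : τ ∈ F.fixingSubgroup) :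
    s56k_kum p β (σ * τ) = s56k_kum p β σ + s56k_kum p β τ := by
  rw [s56k_kum_cocycle hβ (s56eck_fix_pow hβF hσ) (s56eck_fix_pow hβF hτ),
    s56eck_chi_fix hζ hσ, one_mul]

/-- `κ_β = 0` on `G_F` for `β ∈ F`. -/
theorem s56eck_kum_of_mem {β : Qbar} (hβ : β ≠ 0) (hβF : β ∈ F) {σ : GQ}
    (hσ : σ ∈ F.fixingSubgroup) : s56k_kum p β σ = 0 :=
  s56k_kum_of_fix hβ σ ((IntermediateField.mem_fixingSubgroup_iff F σ).1 hσ _ hβF)

/-- `κ` is multiplicative in `β`. -/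
theorem s56eck_kum_mul {β β' : Qbar} (hβ : β ≠ 0) (hβ' : β' ≠ 0) (hβF : β ^ p ∈ F)
    (hβ'F : β' ^ p ∈ F) {σ : GQ} (hσ : σ ∈ F.fixingSubgroup) :
    s56k_kum p (β * β') σ = s56k_kum p β σ + s56k_kum p β' σ := by
  apply s56k_kum_eq (mul_ne_zero hβ hβ')
  rw [map_mul, s56k_kum_spec hβ (s56eck_fix_pow hβF hσ),
    s56k_kum_spec hβ' (s56eck_fix_pow hβ'F hσ), s56k_E_add (s56k_zeta_pow p)]
  ring

/-- `κ` of an inverse. -/
theorem s56eck_kum_inv {β : Qbar} (hβ : β ≠ 0) (hβF : β ^ p ∈ F) {σ : GQ}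
    (hσ : σ ∈ F.fixingSubgroup) : s56k_kum p β⁻¹ σ = -s56k_kum p β σ := by
  apply s56k_kum_eq (inv_ne_zero hβ)
  rw [map_inv₀, s56k_kum_spec hβ (s56eck_fix_pow hβF hσ), mul_inv,
    s56k_E_neg (s56k_zeta_pow p)]

/-- **equivariance**: `κ_{g β}(σ) = χ(g) κ_β(g⁻¹ σ g)`. -/
theorem s56eck_kum_conj {β : Qbar} (hβ : β ≠ 0) (g σ : GQ)
    (hσ : (g⁻¹ * σ * g) (β ^ p) = β ^ p) :
    s56k_kum p (g β) σ = s56k_chi p g * s56k_kum p β (g⁻¹ * σ * g) := by
  apply s56k_kum_eq ((map_ne_zero_iff _ g.injective).2 hβ)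
  have h1 := s56k_kum_spec hβ hσ
  have h2 : σ (g β) = g ((g⁻¹ * σ * g) β) := by
    simp only [AlgEquiv.mul_apply]
    have : g (g⁻¹ (σ (g β))) = σ (g β) := by
      change (g * g⁻¹) (σ (g β)) = _
      rw [mul_inv_cancel]; rfl
    rw [this]
  rw [h2, h1, map_mul, s56k_map_E]

/-- **injectivity**: if `κ_β` vanishes on `G_F` then `β ∈ F`. -/
theorem s56eck_mem_of_kum_zero [FiniteDimensional ℚ F] {β : Qbar} (hβ : β ≠ 0) (hβF : β ^ p ∈ F)
    (h : ∀ σ ∈ F.fixingSubgroup, s56k_kum p β σ = 0) : β ∈ F := by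
  rw [← InfiniteGalois.fixedField_fixingSubgroup F, IntermediateField.mem_fixedField_iff]
  intro σ hσ
  rw [s56k_kum_spec hβ (s56eck_fix_pow hβF hσ), h σ hσ, s56k_E_zero, one_mul]

/-- **level**: for `x = β ^ p ∈ F` locally a `p`-th power up to units outside `S ∋ p`, the Kummer
function `κ_β` is constant modulo `Fix F'`, `F' = F(β)` unramified outside `S`. -/
theorem s56eck_kum_level {S : Finset Nat.Primes} (hpS : (⟨p, hp.out⟩ : Nat.Primes) ∈ S)
    (hF : F.IsUnramifiedOutside S) {β : Qbar} (hβF : β ^ p ∈ F)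
    (hloc : ku_IsLocalPow S F p (β ^ p)) :
    ∃ F' : IntermediateField ℚ Qbar, F ≤ F' ∧ F'.IsUnramifiedOutside S ∧ β ∈ F' ∧
      ∀ σ : GQ, ∀ s ∈ F'.fixingSubgroup, s56k_kum p β (σ * s) = s56k_kum p β σ := by
  have h1 := ku_isUnramifiedOutside_sup_adjoin (p := (⟨p, hp.out⟩ : Nat.Primes)) hpS hF 1
    (x := β ^ p) (y := β) hβF (by simpa using hloc) (by simp)
  refine ⟨F ⊔ IntermediateField.adjoin ℚ {β}, le_sup_left, h1, ?_, fun σ s hs => ?_⟩
  · exact (le_sup_right : IntermediateField.adjoin ℚ {β} ≤ _)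
      (IntermediateField.mem_adjoin_simple_self ℚ β)
  · apply s56k_kum_mul_of_fix
    exact (IntermediateField.mem_fixingSubgroup_iff _ s).1 hs _
      ((le_sup_right : IntermediateField.adjoin ℚ {β} ≤ _)
        (IntermediateField.mem_adjoin_simple_self ℚ β))

/-- **surjectivity (Hilbert 90)**: every homomorphism `c : G_F → ZMod p` of finite level `F' ⊇ F` is
a Kummer function `κ_β`, `β ∈ F'ˣ`, `β ^ p ∈ F`. -/
theorem s56eck_h90 (hζ : s56k_zeta p ∈ F) [FiniteDimensional ℚ F]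
    (F' : IntermediateField ℚ Qbar) [FiniteDimensional ℚ F'] (hFF' : F ≤ F')
    (c : GQ → ZMod p)
    (hc : ∀ σ ∈ F.fixingSubgroup, ∀ τ ∈ F.fixingSubgroup, c (σ * τ) = c σ + c τ)
    (hlev : ∀ σ ∈ F.fixingSubgroup, ∀ s ∈ F'.fixingSubgroup, c (σ * s) = c σ) :
    ∃ β : Qbar, β ≠ 0 ∧ β ∈ F' ∧ β ^ p ∈ F ∧ ∀ σ ∈ F.fixingSubgroup, c σ = s56k_kum p β σ := by
  classical
  have hζp := s56k_zeta_pow p
  have hle : F'.fixingSubgroup ≤ F.fixingSubgroup := IntermediateField.fixingSubgroup_antitone hFF'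
  -- the group `H = G_F` acting on `Q̄`
  let H : Subgroup GQ := F.fixingSubgroup
  have hfi : F'.fixingSubgroup.FiniteIndex := tl_finiteIndex_fixingSubgroup F'
  have hfi' : (F'.fixingSubgroup.subgroupOf H).FiniteIndex := inferInstance
  -- the multiplicative cocycle
  let m : H → Qbar := fun h => s56k_E (s56k_zeta p) (c h.1)
  have hEfix : ∀ (h : H) (t : ZMod p), (h : GQ) (s56k_E (s56k_zeta p) t) = s56k_E (s56k_zeta p) t := by
    intro h t
    rw [s56k_map_E, s56eck_chi_fix hζ h.2, one_mul]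
  obtain ⟨b, hb0, hb⟩ := tl_h90_of_finiteIndex (H := H) (Ω := Qbar) F'.toSubfield
    (F'.fixingSubgroup.subgroupOf H)
    (fun s => by
      rw [Subgroup.mem_subgroupOf, IntermediateField.mem_fixingSubgroup_iff]
      rfl)
    m (fun h => s56k_E_ne_zero hζp _)
    (fun g h => by
      show s56k_E (s56k_zeta p) (c ((g * h : H) : GQ)) = s56k_E (s56k_zeta p) (c g.1)
        * (g : GQ) (s56k_E (s56k_zeta p) (c h.1))
      rw [hEfix, Subgroup.coe_mul, hc _ g.2 _ h.2, s56k_E_add hζp])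
    (fun g s hs => by
      show s56k_E (s56k_zeta p) (c ((g * s : H) : GQ)) = s56k_E (s56k_zeta p) (c g.1)
      rw [Subgroup.coe_mul, hlev _ g.2 _ (Subgroup.mem_subgroupOf.1 hs)])
  -- `β = b⁻¹`
  have hβ : ∀ σ ∈ F.fixingSubgroup, σ b⁻¹ = s56k_E (s56k_zeta p) (c σ) * b⁻¹ := by
    intro σ hσ
    have h1 : s56k_E (s56k_zeta p) (c σ) * σ b = b := hb ⟨σ, hσ⟩
    have hE0 : s56k_E (s56k_zeta p) (c σ) ≠ 0 := s56k_E_ne_zero hζp _
    have h2 : σ b = (s56k_E (s56k_zeta p) (c σ))⁻¹ * b := (eq_inv_mul_iff_mul_eq₀ hE0).2 h1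
    rw [map_inv₀, h2, mul_inv, inv_inv]
  have hβ0 : b⁻¹ ≠ 0 := inv_ne_zero hb0
  refine ⟨b⁻¹, hβ0, ?_, ?_, fun σ hσ => ?_⟩
  · -- `β ∈ F'`
    rw [← InfiniteGalois.fixedField_fixingSubgroup F', IntermediateField.mem_fixedField_iff]
    intro s hs
    have h0 : c s = 0 := by
      have := hlev 1 (one_mem _) s hs
      rw [one_mul] at this
      have h1 := hc 1 (one_mem _) 1 (one_mem _)
      rw [one_mul] at h1
      have h2 : c 1 = 0 := by
        have : c 1 + 0 = c 1 + c 1 := by rw [add_zero]; exact h1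
        exact (add_left_cancel this).symm
      rw [this, h2]
    rw [hβ s (hle hs), h0, s56k_E_zero, one_mul]
  · -- `β ^ p ∈ F`
    rw [← InfiniteGalois.fixedField_fixingSubgroup F, IntermediateField.mem_fixedField_iff]
    intro σ hσ
    rw [map_pow, hβ σ hσ, mul_pow, s56k_E_pow_p hζp, one_mul]
  · exact (s56k_kum_eq hβ0 (hβ σ hσ)).symm

end Fermat.Agent.S56
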