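import Mathlib
import Fermat.Agent.S56.GW.EC.Kum.Kappa
import Fermat.Agent.S56.GW.EC.Kum.Val
import Fermat.Agent.S55.Trans.Levels

/-!
# S56, [GW-EC], cell [EC-KUM], `H¹` half: the Kummer isomorphism (prefix `s56eck_`)

`S ∋ p`, `F ⊆ Q̄` a number field unramified outside `S` containing `ζ_p`, `V = G_F = Fix F`,
with the level system induced by `tl_levelsS S`.

* `s56eck_Hom S F p` : the additive, level-constant functions `V → ZMod p`
  (`= H¹(G_{F,S}, 𝔽_p)`, and `= lvZ1 = lvH1` of any trivial module `≅ ZMod p`);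
* `s56eck_kap p F x : V → ZMod p` : the Kummer function of `x ∈ Fˣ` (any `p`-th root);
* `s56eck_kap_mul`, `s56eck_kap_add`, `s56eck_kap_eq_zero_iff` (kernel `= Fˣᵖ`),
  `s56eck_kap_mem_Hom` (`x ∈ W_S(F) = s56eck_W (id_div S F) p` ⟹ level-constant),
  `s56eck_kap_surj` (every element of `Hom` is `κ_x`, `x ∈ W_S(F)`),
  `s56eck_kap_conj` (`κ_{g x}(σ) = χ(g) κ_x(g⁻¹ σ g)` for `F` normal);
* with `Kum/Alg.lean` (`s56eck_cl (id_div S F) p` : `W_S(F) →* Cl_S(F)`, kernel `E_S · Fˣᵖ`, image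
  `Cl_S(F)[p]`, equivariant) this is the Kummer sequence
  `0 → E_S/p → H¹(G_{F,S}, μ_p) → Cl_S(F)[p] → 0`.
-/

set_option autoImplicit false
set_option linter.unusedSectionVars false
set_option linter.style.haveILetI false

namespace Fermat.Agent.S56

open Fermat.Agent.S55 NumberField

local notation "Qbar" => AlgebraicClosure ℚ
local notation "GQ" => (AlgebraicClosure ℚ ≃ₐ[ℚ] AlgebraicClosure ℚ)

variable {p : ℕ} [hp : Fact p.Prime]

section Root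

variable {F : IntermediateField ℚ Qbar}

/-- The Kummer function on `G_F` does not depend on the choice of the `p`-th root. -/
theorem s56eck_kum_congr (hζ : s56k_zeta p ∈ F) {β β' : Qbar} (hβ : β ≠ 0) (hβF : β ^ p ∈ F)
    (h : β' ^ p = β ^ p) {σ : GQ} (hσ : σ ∈ F.fixingSubgroup) :
    s56k_kum p β' σ = s56k_kum p β σ := by
  have hu : (β' / β) ^ p = 1 := by
    rw [div_pow, h, div_self (pow_ne_zero _ hβ)]
  obtain ⟨t, ht⟩ := s56k_E_surj (s56k_zeta_spec p) hu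
  have huF : β' / β ∈ F := by
    rw [← ht, s56k_E]
    exact pow_mem hζ _
  have hu0 : β' / β ≠ 0 := by
    intro h0
    rw [h0, zero_pow hp.out.ne_zero] at hu
    exact zero_ne_one hu
  have hβ' : β' = β' / β * β := by field_simp
  rw [hβ', s56eck_kum_mul hu0 hβ (by rw [hu]; exact one_mem F) hβF hσ,
    s56eck_kum_of_mem hu0 huF hσ, zero_add]

end Root

section Kap

variable (p) (F : IntermediateField ℚ Qbar)

/-- A chosen `p`-th root of `x ∈ Fˣ` in `Q̄`. -/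
noncomputable def s56eck_rt (x : (↥F)ˣ) : Qbar :=
  Classical.choose (IsAlgClosed.exists_pow_nat_eq (((x : (↥F)ˣ) : F) : Qbar) hp.out.pos)

theorem s56eck_rt_pow (x : (↥F)ˣ) : s56eck_rt p F x ^ p = (((x : (↥F)ˣ) : F) : Qbar) :=
  Classical.choose_spec (IsAlgClosed.exists_pow_nat_eq (((x : (↥F)ˣ) : F) : Qbar) hp.out.pos)

theorem s56eck_coe_ne_zero (x : (↥F)ˣ) : (((x : (↥F)ˣ) : F) : Qbar) ≠ 0 := by
  intro h
  exact x.ne_zero (by exact_mod_cast h)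

theorem s56eck_rt_ne_zero (x : (↥F)ˣ) : s56eck_rt p F x ≠ 0 := by
  intro h
  have := s56eck_rt_pow p F x
  rw [h, zero_pow hp.out.ne_zero] at this
  exact s56eck_coe_ne_zero F x this.symm

theorem s56eck_rt_pow_mem (x : (↥F)ˣ) : s56eck_rt p F x ^ p ∈ F := by
  rw [s56eck_rt_pow]
  exact (x : F).2

/-- The Kummer function of `x ∈ Fˣ` on `G_F`. -/
noncomputable def s56eck_kap (x : (↥F)ˣ) : ↥F.fixingSubgroup → ZMod p :=
  fun σ => s56k_kum p (s56eck_rt p F x) (σ : GQ)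

variable {p F}

/-- `κ_x` is computed by any `p`-th root of `x`. -/
theorem s56eck_kap_eq (hζ : s56k_zeta p ∈ F) (x : (↥F)ˣ) {β : Qbar}
    (hβ : β ^ p = (((x : (↥F)ˣ) : F) : Qbar)) (σ : ↥F.fixingSubgroup) :
    s56eck_kap p F x σ = s56k_kum p β (σ : GQ) := by
  have hβ0 : β ≠ 0 := by
    intro h
    rw [h, zero_pow hp.out.ne_zero] at hβ
    exact s56eck_coe_ne_zero F x hβ.symm
  have hβF : β ^ p ∈ F := by rw [hβ]; exact (x : F).2
  exact s56eck_kum_congr hζ hβ0 hβF ((s56eck_rt_pow p F x).trans hβ.symm) σ.2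

/-- `κ_x` is additive on `G_F`. -/
theorem s56eck_kap_add (hζ : s56k_zeta p ∈ F) (x : (↥F)ˣ) (σ τ : ↥F.fixingSubgroup) :
    s56eck_kap p F x (σ * τ) = s56eck_kap p F x σ + s56eck_kap p F x τ :=
  s56eck_kum_add hζ (s56eck_rt_ne_zero p F x) (s56eck_rt_pow_mem p F x) σ.2 τ.2

/-- `κ` is multiplicative in `x`. -/
theorem s56eck_kap_mul (hζ : s56k_zeta p ∈ F) (x y : (↥F)ˣ) (σ : ↥F.fixingSubgroup) :
    s56eck_kap p F (x * y) σ = s56eck_kap p F x σ + s56eck_kap p F y σ := by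
  have h : (s56eck_rt p F x * s56eck_rt p F y) ^ p = ((((x * y : (↥F)ˣ)) : F) : Qbar) := by
    rw [mul_pow, s56eck_rt_pow, s56eck_rt_pow]
    push_cast
    rfl
  rw [s56eck_kap_eq hζ (x * y) h σ]
  exact s56eck_kum_mul (s56eck_rt_ne_zero p F x) (s56eck_rt_ne_zero p F y)
    (s56eck_rt_pow_mem p F x) (s56eck_rt_pow_mem p F y) σ.2

theorem s56eck_kap_one (hζ : s56k_zeta p ∈ F) (σ : ↥F.fixingSubgroup) :
    s56eck_kap p F 1 σ = 0 := by
  have h : (1 : Qbar) ^ p = ((((1 : (↥F)ˣ)) : F) : Qbar) := by simp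
  rw [s56eck_kap_eq hζ 1 h σ]
  exact s56eck_kum_of_mem one_ne_zero (one_mem F) σ.2

/-- `κ` of a `p`-th power vanishes. -/
theorem s56eck_kap_pow (hζ : s56k_zeta p ∈ F) (y : (↥F)ˣ) (σ : ↥F.fixingSubgroup) :
    s56eck_kap p F (y ^ p) σ = 0 := by
  have h : ((((y : (↥F)ˣ) : F) : Qbar)) ^ p = ((((y ^ p : (↥F)ˣ)) : F) : Qbar) := by
    push_cast
    rfl
  rw [s56eck_kap_eq hζ (y ^ p) h σ]
  exact s56eck_kum_of_mem (s56eck_coe_ne_zero F y) (y : F).2 σ.2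

/-- **kernel**: `κ_x = 0` iff `x` is a `p`-th power in `Fˣ`. -/
theorem s56eck_kap_eq_zero_iff (hζ : s56k_zeta p ∈ F) [FiniteDimensional ℚ F] (x : (↥F)ˣ) :
    (∀ σ : ↥F.fixingSubgroup, s56eck_kap p F x σ = 0) ↔ ∃ y : (↥F)ˣ, y ^ p = x := by
  constructor
  · intro h
    have hmem : s56eck_rt p F x ∈ F :=
      s56eck_mem_of_kum_zero (s56eck_rt_ne_zero p F x) (s56eck_rt_pow_mem p F x)
        (fun σ hσ => h ⟨σ, hσ⟩)
    have h0 : (⟨s56eck_rt p F x, hmem⟩ : F) ≠ 0 := fun h0 =>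
      s56eck_rt_ne_zero p F x (congrArg Subtype.val h0)
    refine ⟨Units.mk0 ⟨s56eck_rt p F x, hmem⟩ h0, ?_⟩
    apply Units.ext
    apply Subtype.ext
    push_cast
    exact s56eck_rt_pow p F x
  · rintro ⟨y, rfl⟩ σ
    exact s56eck_kap_pow hζ y σ

end Kap

section HomS

variable (S : Finset Nat.Primes) (F : IntermediateField ℚ Qbar) (p)

/-- The level system on `G_F` induced by `tl_levelsS S`. -/
noncomputable def s56eck_LV : LevelSys ↥F.fixingSubgroup :=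
  (tl_levelsS S).comap F.fixingSubgroup.subtype

/-- `H¹(G_{F,S}, 𝔽_p)`: additive level-constant functions `G_F → ZMod p`. -/
def s56eck_Hom : AddSubgroup (↥F.fixingSubgroup → ZMod p) where
  carrier := {c | (∀ σ τ, c (σ * τ) = c σ + c τ) ∧ (s56eck_LV S F).IsLC1 c}
  zero_mem' := ⟨fun _ _ => by simp, LevelSys.isLC1_const (0 : ZMod p)⟩
  add_mem' := by
    rintro c c' ⟨h1, h2⟩ ⟨h1', h2'⟩
    refine ⟨fun σ τ => ?_, h2.add h2'⟩
    simp only [Pi.add_apply, h1, h1']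
    abel
  neg_mem' := by
    rintro c ⟨h1, h2⟩
    refine ⟨fun σ τ => ?_, h2.neg⟩
    simp only [Pi.neg_apply, h1]
    abel

variable {S F p}

theorem s56eck_mem_Hom {c : ↥F.fixingSubgroup → ZMod p} :
    c ∈ s56eck_Hom p S F ↔ (∀ σ τ, c (σ * τ) = c σ + c τ) ∧ (s56eck_LV S F).IsLC1 c := Iff.rfl

/-- Level-constancy on `G_F` in terms of fields. -/
theorem s56eck_isLC1_iff {X : Type*} (c : ↥F.fixingSubgroup → X) :
    (s56eck_LV S F).IsLC1 c ↔ ∃ F' : IntermediateField ℚ Qbar, F'.IsUnramifiedOutside S ∧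
      ∀ σ s : ↥F.fixingSubgroup, (s : GQ) ∈ F'.fixingSubgroup → c (σ * s) = c σ := by
  constructor
  · rintro ⟨_, ⟨_, ⟨F', hF', rfl⟩, rfl⟩, h⟩
    exact ⟨F', hF', fun σ s hs => h σ s hs⟩
  · rintro ⟨F', hF', h⟩
    exact ⟨_, ⟨_, ⟨F', hF', rfl⟩, rfl⟩, fun σ s hs => h σ s hs⟩

/-- **level**: for `x ∈ W_S(F)` the Kummer function is level-constant. -/
theorem s56eck_kap_mem_Hom (hζ : s56k_zeta p ∈ F) [NumberField F]
    (hpS : (⟨p, hp.out⟩ : Nat.Primes) ∈ S) (hF : F.IsUnramifiedOutside S) {x : (↥F)ˣ}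
    (hx : x ∈ s56eck_W (id_div S F) p) : s56eck_kap p F x ∈ s56eck_Hom p S F := by
  refine ⟨s56eck_kap_add hζ x, ?_⟩
  have hloc : ku_IsLocalPow S F p (s56eck_rt p F x ^ p) := by
    rw [s56eck_rt_pow]
    exact (s56eck_localPow_iff_mem_W S F p x).2 hx
  obtain ⟨F', -, hF', -, h⟩ := s56eck_kum_level hpS hF (s56eck_rt_pow_mem p F x) hloc
  exact (s56eck_isLC1_iff _).2 ⟨F', hF', fun σ s hs => h (σ : GQ) (s : GQ) hs⟩

/-- **surjectivity**: every additive level-constant function on `G_F` is the Kummer function of an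
element of `W_S(F)`. -/
theorem s56eck_kap_surj (hζ : s56k_zeta p ∈ F) [NumberField F]
    (hF : F.IsUnramifiedOutside S) {c : ↥F.fixingSubgroup → ZMod p} (hc : c ∈ s56eck_Hom p S F) :
    ∃ x : (↥F)ˣ, x ∈ s56eck_W (id_div S F) p ∧ s56eck_kap p F x = c := by
  classical
  obtain ⟨hadd, hlc⟩ := hc
  obtain ⟨F', hF', hlev⟩ := (s56eck_isLC1_iff c).1 hlc
  obtain ⟨L, hle, hL, hgal, -, -⟩ := tl_exists_galois_level (F ⊔ F') (hF.sup hF')
  haveI : FiniteDimensional ℚ L := hL.1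
  haveI : NumberField L := ⟨⟩
  haveI : Normal ℚ L := hgal.to_normal
  have hFL : F ≤ L := le_sup_left.trans hle
  have hF'L : F' ≤ L := le_sup_right.trans hle
  -- extend `c` by zero
  let c' : GQ → ZMod p := fun σ => if h : σ ∈ F.fixingSubgroup then c ⟨σ, h⟩ else 0
  have hc' : ∀ (σ : GQ) (h : σ ∈ F.fixingSubgroup), c' σ = c ⟨σ, h⟩ := fun σ h => dif_pos h
  obtain ⟨β, hβ0, hβL, hβF, hβ⟩ := s56eck_h90 hζ L hFL c'
    (fun σ hσ τ hτ => by
      rw [hc' _ (mul_mem hσ hτ), hc' _ hσ, hc' _ hτ]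
      exact hadd ⟨σ, hσ⟩ ⟨τ, hτ⟩)
    (fun σ hσ s hs => by
      have hsF : s ∈ F.fixingSubgroup := IntermediateField.fixingSubgroup_antitone hFL hs
      rw [hc' _ (mul_mem hσ hsF), hc' _ hσ]
      exact hlev ⟨σ, hσ⟩ ⟨s, hsF⟩ (IntermediateField.fixingSubgroup_antitone hF'L hs))
  have hx0 : (⟨β ^ p, hβF⟩ : F) ≠ 0 := fun h0 => pow_ne_zero p hβ0 (congrArg Subtype.val h0)
  refine ⟨Units.mk0 ⟨β ^ p, hβF⟩ hx0, ?_, ?_⟩
  · rw [← s56eck_localPow_iff_mem_W]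
    exact s56eck_localPow_of_mem_level S L hL F p hβL hβ0
  · funext σ
    rw [s56eck_kap_eq hζ _ (β := β) rfl σ, ← hβ σ σ.2, hc' _ σ.2]

end HomS

section Equivariance

variable {S : Finset Nat.Primes} {F : IntermediateField ℚ Qbar} [Normal ℚ F]

/-- Conjugation by `g ∈ G_ℚ` preserves `G_F` for `F` normal. -/
theorem s56eck_conj_mem (g : GQ) (σ : ↥F.fixingSubgroup) :
    g⁻¹ * (σ : GQ) * g ∈ F.fixingSubgroup := by
  haveI := tl_normal_fixingSubgroup F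
  have := (inferInstance : F.fixingSubgroup.Normal).conj_mem (σ : GQ) σ.2 g⁻¹
  simpa using this

/-- `g⁻¹ σ g` as an element of `G_F`. -/
noncomputable def s56eck_conj (g : GQ) (σ : ↥F.fixingSubgroup) : ↥F.fixingSubgroup :=
  ⟨g⁻¹ * (σ : GQ) * g, s56eck_conj_mem g σ⟩

theorem s56eck_conj_mul (g : GQ) (σ τ : ↥F.fixingSubgroup) :
    s56eck_conj g (σ * τ) = s56eck_conj g σ * s56eck_conj g τ := by
  apply Subtype.ext
  show g⁻¹ * ((σ : GQ) * (τ : GQ)) * g = g⁻¹ * (σ : GQ) * g * (g⁻¹ * (τ : GQ) * g)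
  group

/-- The action of `g ∈ G_ℚ` on `Fˣ` (through `Gal(F/ℚ)`); it is `restrictNormalHom F g • x` for
Mathlib's action of `F ≃ₐ[ℚ] F` on `Fˣ`, see `s56eck_units_smul_eq`. -/
noncomputable def s56eck_act (g : GQ) : (↥F)ˣ →* (↥F)ˣ :=
  Units.map ((AlgEquiv.restrictNormalHom F g : ↥F ≃ₐ[ℚ] ↥F) : ↥F →* ↥F)

theorem s56eck_act_coe (g : GQ) (x : (↥F)ˣ) :
    ((((s56eck_act g x : (↥F)ˣ)) : F) : Qbar) = g (((x : (↥F)ˣ) : F) : Qbar) :=
  tl_coe_restrictNormalHom F g (x : F)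

/-- **equivariance**: `κ_{g x}(σ) = χ(g) κ_x(g⁻¹ σ g)`, `g ∈ G_ℚ` acting on `Fˣ` through
`Gal(F/ℚ)`. -/
theorem s56eck_kap_conj (hζ : s56k_zeta p ∈ F) (g : GQ) (x : (↥F)ˣ) (σ : ↥F.fixingSubgroup) :
    s56eck_kap p F (s56eck_act g x) σ =
      s56k_chi p g * s56eck_kap p F x (s56eck_conj g σ) := by
  have hroot : (g (s56eck_rt p F x)) ^ p = ((((s56eck_act g x : (↥F)ˣ)) : F) : Qbar) := by
    rw [← map_pow, s56eck_rt_pow]
    exact (s56eck_act_coe g x).symm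
  rw [s56eck_kap_eq hζ _ hroot σ]
  exact s56eck_kum_conj (s56eck_rt_ne_zero p F x) g (σ : GQ)
    (s56eck_fix_pow (s56eck_rt_pow_mem p F x) (s56eck_conj_mem g σ))

/-- Conjugation preserves `H¹(G_{F,S}, 𝔽_p)`. -/
theorem s56eck_conj_mem_Hom (g : GQ) {c : ↥F.fixingSubgroup → ZMod p}
    (hc : c ∈ s56eck_Hom p S F) : (fun σ => c (s56eck_conj g σ)) ∈ s56eck_Hom p S F := by
  obtain ⟨hadd, hlc⟩ := hc
  refine ⟨fun σ τ => ?_, ?_⟩
  · show c (s56eck_conj g (σ * τ)) = c (s56eck_conj g σ) + c (s56eck_conj g τ)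
    rw [s56eck_conj_mul, hadd]
  obtain ⟨F', hF', hlev⟩ := (s56eck_isLC1_iff c).1 hlc
  obtain ⟨L, hle, hL, hgal, hLn, -⟩ := tl_exists_galois_level F' hF'
  refine (s56eck_isLC1_iff _).2 ⟨L, hL, fun σ s hs => ?_⟩
  show c (s56eck_conj g (σ * s)) = c (s56eck_conj g σ)
  rw [s56eck_conj_mul]
  apply hlev
  apply IntermediateField.fixingSubgroup_antitone hle
  have := hLn.conj_mem (s : GQ) hs g⁻¹
  simpa [s56eck_conj] using this

end Equivariance

/-- Mathlib's action of `K ≃ₐ[ℚ] K` on `Kˣ` is `Units.map` (bridge for `s56eck_act`). -/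
theorem s56eck_units_smul_eq (K : Type*) [Field K] [Algebra ℚ K] (σ : K ≃ₐ[ℚ] K) (x : Kˣ) :
    σ • x = Units.map ((σ : K ≃ₐ[ℚ] K) : K →* K) x := rfl

end Fermat.Agent.S56
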