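import Mathlib
import Fermat.Agent.S56.GW.EC.Kum.HS1
import Fermat.Agent.S56.GW.EC.Kum.Main

/-!
# S56, [GW-EC], cell [EC-KUM]: `H¹(U, N)` in terms of `H¹(G_{F,S}, 𝔽_p)` (prefix `s56eck_`)

`F ⊆ Q̄` a normal level field (unramified outside `S`), `V = G_F = Fix F`, `U ≤ G_ℚ` a subgroup
containing `V` with `p ∤ [U : V]`, `N` a `U`-module killed by `p` on which `V` acts trivially.

* `s56eck_ZU S F U N` : additive level-constant functions `c : G_F → N` with
  `c (u⁻¹ v u) = u⁻¹ • c v` for `u ∈ U`;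
* `s56eck_resU` : restriction `lvH1 (s56esh_LU (tl_levelsS S) U) N →+ s56eck_ZU S F U N`,
  **bijective** (`s56eck_resU_bijective`, from Hochschild–Serre `Sh/HS.lean`).
-/

set_option autoImplicit false
set_option linter.unusedSectionVars false
set_option linter.style.haveILetI false

namespace Fermat.Agent.S56

open Fermat.Agent.S55 groupCohomology

local notation "Qbar" => AlgebraicClosure ℚ
local notation "GQ" => (AlgebraicClosure ℚ ≃ₐ[ℚ] AlgebraicClosure ℚ)

section ResU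

variable (S : Finset Nat.Primes) (F : IntermediateField ℚ Qbar) [Normal ℚ F]
  (U : Subgroup GQ) (N : Type*) [AddCommGroup N] [DistribMulAction ↥U N]

/-- Additive, level-constant, `U`-conjugation-equivariant functions `G_F → N`. -/
def s56eck_ZU : AddSubgroup (↥F.fixingSubgroup → N) where
  carrier := {c | (∀ v w : ↥F.fixingSubgroup, c (v * w) = c v + c w) ∧ (s56eck_LV S F).IsLC1 c ∧
    ∀ (u : ↥U) (v : ↥F.fixingSubgroup), c (s56eck_conj (u : GQ) v) = u⁻¹ • c v}
  zero_mem' := ⟨fun _ _ => by simp, LevelSys.isLC1_const (0 : N), fun _ _ => by simp⟩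
  add_mem' := by
    rintro c c' ⟨h1, h2, h3⟩ ⟨h1', h2', h3'⟩
    refine ⟨fun v w => ?_, h2.add h2', fun g v => ?_⟩
    · simp only [Pi.add_apply, h1, h1']
      abel
    · simp only [Pi.add_apply, h3, h3', smul_add]
  neg_mem' := by
    rintro c ⟨h1, h2, h3⟩
    refine ⟨fun v w => ?_, h2.neg, fun g v => ?_⟩
    · simp only [Pi.neg_apply, h1]
      abel
    · simp only [Pi.neg_apply, h3, smul_neg]

variable {S F U N}

theorem s56eck_mem_ZU {c : ↥F.fixingSubgroup → N} : c ∈ s56eck_ZU S F U N ↔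
    (∀ v w : ↥F.fixingSubgroup, c (v * w) = c v + c w) ∧ (s56eck_LV S F).IsLC1 c ∧
      ∀ (u : ↥U) (v : ↥F.fixingSubgroup), c (s56eck_conj (u : GQ) v) = u⁻¹ • c v := Iff.rfl

/-- `G_F` inside `U`, as a subgroup of `U`. -/
noncomputable abbrev s56eck_VU (F : IntermediateField ℚ Qbar) (U : Subgroup GQ) : Subgroup ↥U :=
  F.fixingSubgroup.subgroupOf U

instance s56eck_VU_normal : (s56eck_VU F U).Normal := by
  haveI := tl_normal_fixingSubgroup F
  exact Subgroup.Normal.subgroupOf inferInstance U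

/-- from `G_F` to `G_F ∩ U ≤ U`. -/
noncomputable def s56eck_toVU (hVU : F.fixingSubgroup ≤ U) (v : ↥F.fixingSubgroup) : ↥(s56eck_VU F U) :=
  ⟨⟨(v : GQ), hVU v.2⟩, Subgroup.mem_subgroupOf.2 v.2⟩

/-- from `G_F ∩ U ≤ U` to `G_F`. -/
noncomputable def s56eck_ofVU (w : ↥(s56eck_VU F U)) : ↥F.fixingSubgroup :=
  ⟨((w : ↥U) : GQ), Subgroup.mem_subgroupOf.1 w.2⟩

theorem s56eck_ofVU_toVU (hVU : F.fixingSubgroup ≤ U) (v : ↥F.fixingSubgroup) :
    s56eck_ofVU (s56eck_toVU hVU v) = v := rfl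

theorem s56eck_toVU_ofVU (hVU : F.fixingSubgroup ≤ U) (w : ↥(s56eck_VU F U)) :
    s56eck_toVU hVU (s56eck_ofVU w) = w := rfl

theorem s56eck_toVU_mul (hVU : F.fixingSubgroup ≤ U) (v w : ↥F.fixingSubgroup) :
    s56eck_toVU hVU (v * w) = s56eck_toVU hVU v * s56eck_toVU hVU w := rfl

theorem s56eck_ofVU_mul (v w : ↥(s56eck_VU F U)) :
    s56eck_ofVU (v * w) = s56eck_ofVU v * s56eck_ofVU w := rfl

/-- Level-constancy on `G_F ∩ U ≤ U` for the twice-induced level system. -/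
theorem s56eck_isLC1_VU_iff {X : Type*} (c : ↥(s56eck_VU F U) → X) :
    (s56esh_LU (s56esh_LU (tl_levelsS S) U) (s56eck_VU F U)).IsLC1 c ↔
      ∃ F' : IntermediateField ℚ Qbar, F'.IsUnramifiedOutside S ∧
        ∀ σ s : ↥(s56eck_VU F U), ((s : ↥U) : GQ) ∈ F'.fixingSubgroup → c (σ * s) = c σ := by
  constructor
  · rintro ⟨_, ⟨_, ⟨_, ⟨F', hF', rfl⟩, rfl⟩, rfl⟩, h⟩
    exact ⟨F', hF', fun σ s hs => h σ s hs⟩
  · rintro ⟨F', hF', h⟩
    exact ⟨_, ⟨_, ⟨_, ⟨F', hF', rfl⟩, rfl⟩, rfl⟩, fun σ s hs => h σ s hs⟩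

theorem s56eck_transport_mem (hVU : F.fixingSubgroup ≤ U)
    (c : ↥(s56eck_ZV (s56esh_LU (tl_levelsS S) U) (s56eck_VU F U) N)) :
    (fun v : ↥F.fixingSubgroup => (c : ↥(s56eck_VU F U) → N) (s56eck_toVU hVU v)) ∈
      s56eck_ZU S F U N := by
  obtain ⟨h1, h2, h3⟩ := c.2
  refine ⟨fun v w => ?_, ?_, fun u v => ?_⟩
  · show (c : ↥(s56eck_VU F U) → N) (s56eck_toVU hVU (v * w)) = _
    rw [s56eck_toVU_mul, h1]
  · obtain ⟨F', hF', h⟩ := (s56eck_isLC1_VU_iff _).1 h2
    refine (s56eck_isLC1_iff _).2 ⟨F', hF', fun σ s hs => ?_⟩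
    show (c : ↥(s56eck_VU F U) → N) (s56eck_toVU hVU (σ * s)) = _
    rw [s56eck_toVU_mul]
    exact h _ _ hs
  · have := h3 u (s56eck_toVU hVU v)
    exact this

/-- transport from functions on `G_F ∩ U ≤ U` to functions on `G_F`. -/
noncomputable def s56eck_transport (hVU : F.fixingSubgroup ≤ U) :
    ↥(s56eck_ZV (s56esh_LU (tl_levelsS S) U) (s56eck_VU F U) N) →+ ↥(s56eck_ZU S F U N) where
  toFun c := ⟨_, s56eck_transport_mem hVU c⟩
  map_zero' := rfl
  map_add' _ _ := rfl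

theorem s56eck_transport_bijective (hVU : F.fixingSubgroup ≤ U) :
    Function.Bijective (s56eck_transport (S := S) (N := N) hVU) := by
  constructor
  · intro c c' h
    apply Subtype.ext
    funext w
    have := congrArg (fun f : ↥(s56eck_ZU S F U N) => (f : ↥F.fixingSubgroup → N) (s56eck_ofVU w)) h
    exact this
  · intro c
    obtain ⟨h1, h2, h3⟩ := c.2
    refine ⟨⟨fun w => (c : ↥F.fixingSubgroup → N) (s56eck_ofVU w), ?_, ?_, ?_⟩, rfl⟩
    · intro v w
      show (c : ↥F.fixingSubgroup → N) (s56eck_ofVU (v * w)) = _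
      rw [s56eck_ofVU_mul]
      exact h1 _ _
    · obtain ⟨F', hF', h⟩ := (s56eck_isLC1_iff _).1 h2
      refine (s56eck_isLC1_VU_iff _).2 ⟨F', hF', fun σ s hs => ?_⟩
      show (c : ↥F.fixingSubgroup → N) (s56eck_ofVU (σ * s)) = _
      rw [s56eck_ofVU_mul]
      exact h _ _ hs
    · intro u w
      exact h3 u (s56eck_ofVU w)

/-- **Restriction** `H¹(U, N) → {c : G_F → N}`. -/
noncomputable def s56eck_resU (hVU : F.fixingSubgroup ≤ U)
    (hVN : ∀ u : ↥U, (u : GQ) ∈ F.fixingSubgroup → ∀ n : N, u • n = n) :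
    lvH1 (s56esh_LU (tl_levelsS S) U) N →+ ↥(s56eck_ZU S F U N) :=
  (s56eck_transport hVU).comp
    (s56eck_resV (L := s56esh_LU (tl_levelsS S) U) (V := s56eck_VU F U)
      (fun v n => hVN v (Subgroup.mem_subgroupOf.1 v.2) n))

theorem s56eck_resU_mk (hVU : F.fixingSubgroup ≤ U)
    (hVN : ∀ u : ↥U, (u : GQ) ∈ F.fixingSubgroup → ∀ n : N, u • n = n)
    (c : lvZ1 (s56esh_LU (tl_levelsS S) U) N) (v : ↥F.fixingSubgroup) :
    ((s56eck_resU hVU hVN (lvH1mk _ N c) : ↥(s56eck_ZU S F U N)) : ↥F.fixingSubgroup → N) v =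
      (c : ↥U → N) ⟨(v : GQ), hVU v.2⟩ := rfl

/-- **Hochschild–Serre**: `H¹(U, N) ≃ {c : G_F → N additive, level-constant, U-equivariant}` for
`N` killed by `p`, `G_F` acting trivially, `p ∤ [U : G_F]`. -/
theorem s56eck_resU_bijective (hF : F.IsUnramifiedOutside S) (hVU : F.fixingSubgroup ≤ U)
    (hVN : ∀ u : ↥U, (u : GQ) ∈ F.fixingSubgroup → ∀ n : N, u • n = n)
    {p : ℕ} (hp : p.Prime) (hpN : ∀ n : N, p • n = 0)
    (hidx : ¬ p ∣ (s56eck_VU F U).index) :
    Function.Bijective (s56eck_resU (S := S) (N := N) hVU hVN) := by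
  have hlev : s56eck_VU F U ∈ (s56esh_LU (tl_levelsS S) U).levels :=
    ⟨F.fixingSubgroup, ⟨F, hF, rfl⟩, rfl⟩
  have hsm : (s56esh_LU (tl_levelsS S) U).IsSmooth N := fun n =>
    ⟨s56eck_VU F U, hlev, fun u hu => hVN u (Subgroup.mem_subgroupOf.1 hu) n⟩
  have h1 := s56eck_resV_bijective (L := s56esh_LU (tl_levelsS S) U) (V := s56eck_VU F U)
    (N := N) ⟨_, hlev, le_rfl⟩ hsm hp hpN hidx
    (fun v n => hVN v (Subgroup.mem_subgroupOf.1 v.2) n)
  exact (s56eck_transport_bijective hVU).comp h1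

end ResU

/-! ### Double duality over `ZMod p` and a common level for finitely many functions -/

section DD

variable {p : ℕ} [hp : Fact p.Prime]

theorem s56eck_dd_aux {N : Type*} [AddCommGroup N] [Module (ZMod p) N] [Module.Finite (ZMod p) N]
    (ψ : (N →+ ZMod p) →+ ZMod p) : ∃ n : N, ∀ x : N →+ ZMod p, ψ x = x n := by
  let ψ' : Module.Dual (ZMod p) N →+ ZMod p := ψ.comp LinearMap.toAddMonoidHom'
  let ψ'' : Module.Dual (ZMod p) (Module.Dual (ZMod p) N) := ψ'.toZModLinearMap p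
  refine ⟨(Module.evalEquiv (ZMod p) N).symm ψ'', fun x => ?_⟩
  have h1 := (Module.evalEquiv (ZMod p) N).apply_symm_apply ψ''
  have h2 := LinearMap.congr_fun h1 (x.toZModLinearMap p)
  rw [Module.evalEquiv_apply, Module.Dual.eval_apply] at h2
  exact h2.symm

/-- **Double duality**: every additive functional on `Hom(N, 𝔽_p)` is an evaluation (`N` finite,
killed by `p`). -/
theorem s56eck_dd {N : Type*} [AddCommGroup N] [Finite N] (hpN : ∀ n : N, p • n = 0)
    (ψ : (N →+ ZMod p) →+ ZMod p) : ∃ n : N, ∀ x : N →+ ZMod p, ψ x = x n := by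
  letI inst : Module (ZMod p) N := AddCommGroup.zmodModule hpN
  exact @s56eck_dd_aux p hp N _ inst (@Module.Finite.of_finite (ZMod p) N _ _ inst _) ψ

theorem s56eck_sep_aux {N : Type*} [AddCommGroup N] [Module (ZMod p) N] {n : N}
    (h : ∀ x : N →+ ZMod p, x n = 0) : n = 0 := by
  rw [← Module.forall_dual_apply_eq_zero_iff (ZMod p)]
  intro ℓ
  exact h ℓ.toAddMonoidHom

/-- **Separation**: the additive characters `N →+ 𝔽_p` separate the points of `N` (killed by `p`). -/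
theorem s56eck_sep {N : Type*} [AddCommGroup N] (hpN : ∀ n : N, p • n = 0) {n : N}
    (h : ∀ x : N →+ ZMod p, x n = 0) : n = 0 := by
  letI inst : Module (ZMod p) N := AddCommGroup.zmodModule hpN
  exact @s56eck_sep_aux p hp N _ inst n h

theorem s56eck_sep' {N : Type*} [AddCommGroup N] (hpN : ∀ n : N, p • n = 0) {n n' : N}
    (h : ∀ x : N →+ ZMod p, x n = x n') : n = n' := by
  rw [← sub_eq_zero]
  apply s56eck_sep hpN
  intro x
  rw [map_sub, h x, sub_self]

/-- Finitely many level-constant functions have a common level. -/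
theorem s56eck_common_level {G : Type*} [Group G] (L : LevelSys G) {ι : Type*} [Finite ι]
    {Y : ι → Type*} (f : ∀ i, G → Y i) (h : ∀ i, L.IsLC1 (f i)) :
    ∃ W ∈ L.levels, ∀ i, ∀ g : G, ∀ s ∈ W, f i (g * s) = f i g := by
  classical
  have key : ∀ T : Finset ι, ∃ W ∈ L.levels, ∀ i ∈ T, ∀ g : G, ∀ s ∈ W, f i (g * s) = f i g := by
    intro T
    induction T using Finset.induction_on with
    | empty =>
      obtain ⟨W, hW⟩ := L.nonempty
      exact ⟨W, hW, fun i hi => absurd hi (Finset.notMem_empty i)⟩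
    | insert a T _ ih =>
      obtain ⟨W, hW, hT⟩ := ih
      obtain ⟨W', hW', ha⟩ := h a
      obtain ⟨W'', hW'', hle⟩ := L.directed W hW W' hW'
      refine ⟨W'', hW'', fun i hi g s hs => ?_⟩
      rcases Finset.mem_insert.1 hi with rfl | hi
      · exact ha g s (hle hs).2
      · exact hT i hi g s (hle hs).1
  haveI := Fintype.ofFinite ι
  obtain ⟨W, hW, hT⟩ := key Finset.univ
  exact ⟨W, hW, fun i => hT i (Finset.mem_univ i)⟩

end DD

/-! ### The twisted actions and the duality bijection -/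

section Twist

variable {p : ℕ} [hp : Fact p.Prime] {S : Finset Nat.Primes} {F : IntermediateField ℚ Qbar}
  [Normal ℚ F]

theorem s56eck_chi_ne_zero (g : GQ) : s56k_chi p g ≠ 0 := by
  intro h
  have h1 : s56k_chi p (g * g⁻¹) = 1 := by rw [mul_inv_cancel, s56k_chi_one]
  rw [s56k_chi_mul, h, zero_mul] at h1
  exact zero_ne_one h1

theorem s56eck_smul_mem_Hom (a : ZMod p) {c : ↥F.fixingSubgroup → ZMod p}
    (hc : c ∈ s56eck_Hom p S F) : (fun v => a * c v) ∈ s56eck_Hom p S F :=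
  ⟨fun σ τ => by
    show a * c (σ * τ) = a * c σ + a * c τ
    rw [hc.1, mul_add], hc.2.comp (fun t => a * t)⟩

/-- The twisted action of `g ∈ G_ℚ` on `H¹(G_{F,S}, 𝔽_p)`: `(g ⋆ c)(v) = χ(g) c(g⁻¹ v g)`
(this is the natural action on `H¹(G_{F,S}, μ_p)`). -/
noncomputable def s56eck_twH (g : GQ) : ↥(s56eck_Hom p S F) →+ ↥(s56eck_Hom p S F) where
  toFun c := ⟨fun v => s56k_chi p g * (c : ↥F.fixingSubgroup → ZMod p) (s56eck_conj g v),
    s56eck_smul_mem_Hom _ (s56eck_conj_mem_Hom g c.2)⟩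
  map_zero' := by
    apply Subtype.ext
    funext v
    show s56k_chi p g * (0 : ZMod p) = 0
    rw [mul_zero]
  map_add' c c' := by
    apply Subtype.ext
    funext v
    show s56k_chi p g * ((c : ↥F.fixingSubgroup → ZMod p) _ + (c' : ↥F.fixingSubgroup → ZMod p) _) = _
    rw [mul_add]
    rfl

theorem s56eck_twH_apply (g : GQ) (c : ↥(s56eck_Hom p S F)) (v : ↥F.fixingSubgroup) :
    ((s56eck_twH g c : ↥(s56eck_Hom p S F)) : ↥F.fixingSubgroup → ZMod p) v =
      s56k_chi p g * (c : ↥F.fixingSubgroup → ZMod p) (s56eck_conj g v) := rfl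

variable (U : Subgroup GQ) (N : Type*) [AddCommGroup N] [DistribMulAction ↥U N]

/-- The twisted action of `u ∈ U` on `Hom(N, 𝔽_p)`: `(u ⋆ x)(n) = χ(u) x(u⁻¹ n)`
(this is the natural action on `Hom(N, μ_p)`). -/
noncomputable def s56eck_twX (u : ↥U) : (N →+ ZMod p) →+ (N →+ ZMod p) where
  toFun x := (AddMonoidHom.mulLeft (s56k_chi p (u : GQ))).comp
    (x.comp (DistribSMul.toAddMonoidHom N u⁻¹))
  map_zero' := by
    ext n
    simp
  map_add' x y := by
    ext n
    simp [mul_add]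

theorem s56eck_twX_apply (u : ↥U) (x : N →+ ZMod p) (n : N) :
    s56eck_twX (p := p) U N u x n = s56k_chi p (u : GQ) * x (u⁻¹ • n) := rfl

variable {U N}

/-- `c ↦ (x ↦ x ∘ c)`. -/
noncomputable def s56eck_dualFun (c : ↥(s56eck_ZU S F U N)) :
    (N →+ ZMod p) →+ ↥(s56eck_Hom p S F) where
  toFun x := ⟨fun v => x ((c : ↥F.fixingSubgroup → N) v),
    ⟨fun σ τ => by
      show x ((c : ↥F.fixingSubgroup → N) (σ * τ)) = x ((c : ↥F.fixingSubgroup → N) σ) +
        x ((c : ↥F.fixingSubgroup → N) τ)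
      rw [c.2.1, map_add], c.2.2.1.comp x⟩⟩
  map_zero' := rfl
  map_add' _ _ := rfl

theorem s56eck_dualFun_apply (c : ↥(s56eck_ZU S F U N)) (x : N →+ ZMod p)
    (v : ↥F.fixingSubgroup) :
    ((s56eck_dualFun (p := p) c x : ↥(s56eck_Hom p S F)) : ↥F.fixingSubgroup → ZMod p) v =
      x ((c : ↥F.fixingSubgroup → N) v) := rfl

theorem s56eck_dualFun_equivariant (c : ↥(s56eck_ZU S F U N)) (u : ↥U) (x : N →+ ZMod p) :
    s56eck_dualFun (p := p) c (s56eck_twX U N u x) = s56eck_twH (u : GQ) (s56eck_dualFun c x) := by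
  apply Subtype.ext
  funext v
  rw [s56eck_twH_apply, s56eck_dualFun_apply, s56eck_dualFun_apply, s56eck_twX_apply, c.2.2.2]

variable (p S F U N)

/-- The `U`-equivariant additive maps `Hom(N, μ_p) → H¹(G_{F,S}, μ_p)`. -/
def s56eck_EqHom : Type _ :=
  {φ : (N →+ ZMod p) →+ ↥(s56eck_Hom p S F) //
    ∀ (u : ↥U) (x : N →+ ZMod p), φ (s56eck_twX U N u x) = s56eck_twH (u : GQ) (φ x)}

variable {p S F U N}

/-- The duality map `c ↦ (x ↦ x ∘ c)`. -/
noncomputable def s56eck_dualMap (c : ↥(s56eck_ZU S F U N)) : s56eck_EqHom p S F U N :=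
  ⟨s56eck_dualFun c, s56eck_dualFun_equivariant c⟩

/-- **Duality**: `{c : G_F → N additive, level-constant, U-equivariant} ≃ Hom_U(Hom(N, μ_p),
H¹(G_{F,S}, μ_p))` for `N` finite and killed by `p`. -/
theorem s56eck_dualMap_bijective [Finite N] (hpN : ∀ n : N, p • n = 0) :
    Function.Bijective (s56eck_dualMap (p := p) (S := S) (F := F) (U := U) (N := N)) := by
  classical
  constructor
  · intro c c' h
    apply Subtype.ext
    funext v
    apply s56eck_sep' hpN
    intro x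
    have h1 := congrArg (fun φ : s56eck_EqHom p S F U N =>
      ((φ.1 x : ↥(s56eck_Hom p S F)) : ↥F.fixingSubgroup → ZMod p) v) h
    exact h1
  · rintro ⟨φ, hφ⟩
    -- evaluation functionals
    let ψ : ↥F.fixingSubgroup → ((N →+ ZMod p) →+ ZMod p) := fun v =>
      { toFun := fun x => ((φ x : ↥(s56eck_Hom p S F)) : ↥F.fixingSubgroup → ZMod p) v
        map_zero' := by rw [map_zero]; rfl
        map_add' := fun x y => by rw [map_add]; rfl }
    let c : ↥F.fixingSubgroup → N := fun v => (s56eck_dd hpN (ψ v)).choose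
    have hc : ∀ v (x : N →+ ZMod p),
        ((φ x : ↥(s56eck_Hom p S F)) : ↥F.fixingSubgroup → ZMod p) v = x (c v) := fun v x =>
      (s56eck_dd hpN (ψ v)).choose_spec x
    have hcmem : c ∈ s56eck_ZU S F U N := by
      refine ⟨fun v w => ?_, ?_, fun u v => ?_⟩
      · apply s56eck_sep' hpN
        intro x
        rw [map_add, ← hc, ← hc, ← hc]
        exact (φ x).2.1 v w
      · haveI : NeZero p := ⟨hp.out.ne_zero⟩
        haveI : Finite (N →+ ZMod p) := DFunLike.finite _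
        obtain ⟨W, hW, hlev⟩ := s56eck_common_level (s56eck_LV S F)
          (fun x : N →+ ZMod p => ((φ x : ↥(s56eck_Hom p S F)) : ↥F.fixingSubgroup → ZMod p))
          (fun x => (φ x).2.2)
        refine ⟨W, hW, fun g s hs => ?_⟩
        apply s56eck_sep' hpN
        intro x
        rw [← hc, ← hc]
        exact hlev x g s hs
      · apply s56eck_sep' hpN
        intro x
        have h1 : ((φ (s56eck_twX U N u x) : ↥(s56eck_Hom p S F)) : ↥F.fixingSubgroup → ZMod p) v =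
            ((s56eck_twH (u : GQ) (φ x) : ↥(s56eck_Hom p S F)) : ↥F.fixingSubgroup → ZMod p) v := by
          rw [hφ u x]
        rw [s56eck_twH_apply, hc, hc, s56eck_twX_apply] at h1
        exact (mul_left_cancel₀ (s56eck_chi_ne_zero (u : GQ)) h1).symm
    refine ⟨⟨c, hcmem⟩, ?_⟩
    apply Subtype.ext
    apply AddMonoidHom.ext
    intro x
    apply Subtype.ext
    funext v
    exact (hc v x).symm

/-- **(GLUE)** `H¹(U, N) ≃ Hom_U(Hom(N, μ_p), H¹(G_{F,S}, μ_p))`: the composite of restriction to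
`G_F` and duality is a bijection, for `N` finite, killed by `p`, with trivial `G_F`-action, and
`p ∤ [U : G_F]`. -/
theorem s56eck_glue_bijective [Finite N] (hF : F.IsUnramifiedOutside S)
    (hVU : F.fixingSubgroup ≤ U)
    (hVN : ∀ u : ↥U, (u : GQ) ∈ F.fixingSubgroup → ∀ n : N, u • n = n)
    (hpN : ∀ n : N, p • n = 0) (hidx : ¬ p ∣ (s56eck_VU F U).index) :
    Function.Bijective (fun z : lvH1 (s56esh_LU (tl_levelsS S) U) N =>
      s56eck_dualMap (p := p) (s56eck_resU (S := S) hVU hVN z)) :=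
  (s56eck_dualMap_bijective hpN).comp (s56eck_resU_bijective hF hVU hVN hp.out hpN hidx)

/-- The count form of (GLUE). -/
theorem s56eck_glue_card [Finite N] (hF : F.IsUnramifiedOutside S)
    (hVU : F.fixingSubgroup ≤ U)
    (hVN : ∀ u : ↥U, (u : GQ) ∈ F.fixingSubgroup → ∀ n : N, u • n = n)
    (hpN : ∀ n : N, p • n = 0) (hidx : ¬ p ∣ (s56eck_VU F U).index) :
    Nat.card (lvH1 (s56esh_LU (tl_levelsS S) U) N) = Nat.card (s56eck_EqHom p S F U N) :=
  Nat.card_eq_of_bijective _ (s56eck_glue_bijective hF hVU hVN hpN hidx)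

end Twist

end Fermat.Agent.S56
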