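import Mathlib
import Fermat.Agent.S56.GW.EC.Kum.Alg

/-!
# S56, [GW-EC], cell [EC-KUM], `H¹` half: the Kummer sequence for arbitrary models (`s56eck_`)

Mathlib only.  `d : A →* I` an equivariant homomorphism of commutative groups with an action of a
group `B` (application: `id_div S K : Kˣ →* id_I S K`, `B ≤ Gal(K/ℚ)`), `I` without `p`-torsion,
`W = s56eck_W d p`.  Given ANY models, i.e. additive groups with `B`-action

* `H` with `κ : W → H` additive, onto, equivariant, with kernel `W ∩ A^p`  (`H = H¹(G_{K,S}, μ_p)`),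
* `E` with `ε : ker d → E` additive, onto, equivariant, with kernel `(ker d)^p`  (`E = E_S/p`),
* `C` with `γ : C → I ⧸ d.range` additive, injective, equivariant, with image the `p`-torsion
  (`C = Cl_S[p]`),

there are equivariant additive maps `ι : E →+ H`, `π : H →+ C` with `ι` injective, `π` surjective,
`ker π = range ι`, `ι (ε e) = κ e`, `γ (π (κ x)) = cl x`:  **`s56eck_seq`**.
-/

set_option autoImplicit false
set_option linter.unusedSectionVars false

namespace Fermat.Agent.S56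

section Seq

variable {A I : Type*} [CommGroup A] [CommGroup I] {d : A →* I} {p : ℕ}
  {B : Type*} [Group B] [MulDistribMulAction B A] [MulDistribMulAction B I]
  {H E C : Type*} [AddCommGroup H] [AddCommGroup E] [AddCommGroup C]
  [DistribMulAction B H] [DistribMulAction B E] [DistribMulAction B C]

theorem s56eck_smul_mem_ker (hd : ∀ (g : B) (x : A), d (g • x) = g • d x) (g : B) {x : A}
    (hx : x ∈ d.ker) : g • x ∈ d.ker := by
  rw [MonoidHom.mem_ker] at hx ⊢
  rw [hd, hx, smul_one]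

/-- **The Kummer sequence for arbitrary models of `H¹`, `E/p`, `Cl[p]`.** -/
theorem s56eck_seq (hI : ∀ a : I, a ^ p = 1 → a = 1)
    (hd : ∀ (g : B) (x : A), d (g • x) = g • d x)
    -- the model of `W / A^p`
    (κ : ↥(s56eck_W d p) → H) (hκm : ∀ x y, κ (x * y) = κ x + κ y)
    (hκs : Function.Surjective κ)
    (hκk : ∀ x : ↥(s56eck_W d p), κ x = 0 ↔ ∃ y : A, (x : A) = y ^ p)
    (hκe : ∀ (g : B) (x : ↥(s56eck_W d p)),
      κ ⟨g • (x : A), s56eck_smul_mem_W hd g x.2⟩ = g • κ x)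
    -- the model of `E / E^p`
    (ε : ↥d.ker → E) (hεm : ∀ x y, ε (x * y) = ε x + ε y)
    (hεs : Function.Surjective ε)
    (hεk : ∀ e : ↥d.ker, ε e = 0 ↔ ∃ y : ↥d.ker, e = y ^ p)
    (hεe : ∀ (g : B) (e : ↥d.ker), ε ⟨g • (e : A), s56eck_smul_mem_ker hd g e.2⟩ = g • ε e)
    -- the model of `Cl[p]`
    (γ : C → I ⧸ d.range) (hγm : ∀ x y, γ (x + y) = γ x * γ y)
    (hγi : Function.Injective γ)
    (hγr : ∀ c : I ⧸ d.range, c ^ p = 1 ↔ ∃ z, γ z = c)
    (hγe : ∀ (g : B) (z : C) (a : I), γ z = QuotientGroup.mk a →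
      γ (g • z) = QuotientGroup.mk (g • a)) :
    ∃ (ι : E →+ H) (π : H →+ C),
      (∀ (g : B) (e : E), ι (g • e) = g • ι e) ∧ (∀ (g : B) (h : H), π (g • h) = g • π h) ∧
      Function.Injective ι ∧ Function.Surjective π ∧ (∀ h : H, π h = 0 ↔ ∃ e, ι e = h) ∧
      (∀ e : ↥d.ker, ι (ε e) = κ ⟨(e : A), s56eck_ker_le_W d p e.2⟩) ∧
      (∀ x : ↥(s56eck_W d p), γ (π (κ x)) = s56eck_cl d p hI x) := by
  classical
  -- basic facts on `κ`, `ε`
  have hκ1 : κ 1 = 0 := by
    have := hκm 1 1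
    rw [mul_one] at this
    exact left_eq_add.1 this
  have hκinv : ∀ x, κ x⁻¹ = -κ x := by
    intro x
    have := hκm x x⁻¹
    rw [mul_inv_cancel, hκ1] at this
    exact (neg_eq_of_add_eq_zero_right this.symm).symm
  have hκdiv : ∀ x y, κ x = κ y ↔ ∃ t : A, ((x / y : ↥(s56eck_W d p)) : A) = t ^ p := by
    intro x y
    rw [← hκk, div_eq_mul_inv, hκm, hκinv, ← sub_eq_add_neg, sub_eq_zero]
  have hε1 : ε 1 = 0 := by
    have := hεm 1 1
    rw [mul_one] at this
    exact left_eq_add.1 this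
  have hεinv : ∀ x, ε x⁻¹ = -ε x := by
    intro x
    have := hεm x x⁻¹
    rw [mul_inv_cancel, hε1] at this
    exact (neg_eq_of_add_eq_zero_right this.symm).symm
  have hεdiv : ∀ x y, ε x = ε y ↔ ∃ t : ↥d.ker, x / y = t ^ p := by
    intro x y
    rw [← hεk, div_eq_mul_inv, hεm, hεinv, ← sub_eq_add_neg, sub_eq_zero]
  have hγ0 : γ 0 = 1 := by
    have := hγm 0 0
    rw [add_zero] at this
    exact left_eq_mul.1 this
  -- the inclusion `ker d → W`
  let j : ↥d.ker → ↥(s56eck_W d p) := fun e => ⟨(e : A), s56eck_ker_le_W d p e.2⟩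
  have hjm : ∀ x y, j (x * y) = j x * j y := fun x y => rfl
  -- `ι`
  have hιwd : ∀ e e' : ↥d.ker, ε e = ε e' → κ (j e) = κ (j e') := by
    intro e e' h
    obtain ⟨t, ht⟩ := (hεdiv e e').1 h
    refine (hκdiv _ _).2 ⟨(t : A), ?_⟩
    have : ((e / e' : ↥d.ker) : A) = ((t ^ p : ↥d.ker) : A) := by rw [ht]
    simpa using this
  let ι0 : E → H := fun z => κ (j (hεs z).choose)
  have hι0 : ∀ e : ↥d.ker, ι0 (ε e) = κ (j e) := fun e =>
    hιwd _ _ (hεs (ε e)).choose_spec
  let ι : E →+ H :=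
    { toFun := ι0
      map_zero' := by
        have := hι0 1
        rw [hε1] at this
        rw [this]
        exact hκ1
      map_add' := by
        intro z z'
        obtain ⟨e, rfl⟩ := hεs z
        obtain ⟨e', rfl⟩ := hεs z'
        rw [← hεm, hι0, hι0, hι0, hjm, hκm] }
  have hι : ∀ e : ↥d.ker, ι (ε e) = κ (j e) := hι0
  -- `π`
  have hcl : ∀ x : ↥(s56eck_W d p), ∃ z, γ z = s56eck_cl d p hI x := fun x =>
    (hγr _).1 (s56eck_cl_pow hI x)
  have hclwd : ∀ x x' : ↥(s56eck_W d p), κ x = κ x' → s56eck_cl d p hI x = s56eck_cl d p hI x' := by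
    intro x x' h
    obtain ⟨t, ht⟩ := (hκdiv x x').1 h
    have h1 : s56eck_cl d p hI (x / x') = 1 := by
      rw [s56eck_cl_eq_one_iff]
      exact ⟨1, one_mem _, t, by rw [one_mul, ht]⟩
    rw [map_div] at h1
    exact div_eq_one.1 h1
  let π0 : H → C := fun h => (hcl (hκs h).choose).choose
  have hπ0 : ∀ x : ↥(s56eck_W d p), γ (π0 (κ x)) = s56eck_cl d p hI x := by
    intro x
    have h1 := (hcl (hκs (κ x)).choose).choose_spec
    rw [h1]
    exact hclwd _ _ (hκs (κ x)).choose_spec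
  let π : H →+ C :=
    { toFun := π0
      map_zero' := by
        apply hγi
        have := hπ0 1
        rw [hκ1, map_one] at this
        rw [this, hγ0]
      map_add' := by
        intro h h'
        obtain ⟨x, rfl⟩ := hκs h
        obtain ⟨x', rfl⟩ := hκs h'
        apply hγi
        rw [← hκm, hγm, hπ0, hπ0, hπ0, map_mul] }
  have hπ : ∀ x : ↥(s56eck_W d p), γ (π (κ x)) = s56eck_cl d p hI x := hπ0
  refine ⟨ι, π, ?_, ?_, ?_, ?_, ?_, hι, hπ⟩
  · -- `ι` equivariant
    intro g z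
    obtain ⟨e, rfl⟩ := hεs z
    rw [← hεe, hι, hι, ← hκe]
  · -- `π` equivariant
    intro g h
    obtain ⟨x, rfl⟩ := hκs h
    apply hγi
    rw [← hκe, hπ]
    have h1 : γ (π (κ x)) = QuotientGroup.mk (s56eck_root d p x) := by
      rw [hπ, s56eck_cl_apply]
    rw [hγe g _ _ h1, s56eck_cl_apply, s56eck_root_smul hI hd]
  · -- `ι` injective
    rw [injective_iff_map_eq_zero]
    intro z hz
    obtain ⟨e, rfl⟩ := hεs z
    rw [hι, hκk] at hz
    obtain ⟨y, hy⟩ := hz
    have hyk : y ∈ d.ker := by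
      apply s56eck_ker_inf_pow hI
      have : (e : A) = y ^ p := hy
      rw [← this]
      exact e.2
    rw [hεk]
    exact ⟨⟨y, hyk⟩, Subtype.ext hy⟩
  · -- `π` surjective
    intro z
    obtain ⟨x, hx⟩ := s56eck_cl_surj hI (γ z) ((hγr _).2 ⟨z, rfl⟩)
    exact ⟨κ x, hγi (by rw [hπ, hx])⟩
  · -- exactness
    intro h
    obtain ⟨x, rfl⟩ := hκs h
    constructor
    · intro h0
      have h1 : s56eck_cl d p hI x = 1 := by rw [← hπ, h0, hγ0]
      obtain ⟨e, he, y, hxy⟩ := (s56eck_cl_eq_one_iff hI x).1 h1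
      refine ⟨ε ⟨e, he⟩, ?_⟩
      rw [hι]
      refine (hκdiv _ _).2 ⟨y⁻¹, ?_⟩
      show e / (x : A) = y⁻¹ ^ p
      rw [hxy, inv_pow, div_mul_cancel_left]
    · rintro ⟨z, hz⟩
      obtain ⟨e, rfl⟩ := hεs z
      apply hγi
      rw [← hz, hι, hπ, hγ0, s56eck_cl_eq_one_iff]
      exact ⟨e, e.2, 1, by simp [j]⟩

end Seq

end Fermat.Agent.S56
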